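/-
GEN-13 (P-GENUS / S24): the stabilizer of `z ↦ j(N z)` in `SL(2,ℤ)` is exactly `Γ₀(N)`, and all
`z ↦ j(d z)`, `d ∣ N`, are `Γ₀(N)`-invariant.
-/
import Fermat.Agent.H23.BlueprintAn
import Fermat.Agent.H18.SeparatingForm

set_option autoImplicit false

namespace Fermat.Agent.H82

open UpperHalfPlane ModularForm CongruenceSubgroup MatrixGroups Matrix
open Fermat.Agent.H18 Fermat.Agent.H23

/-- `E₄ → 1` at `i∞`. -/
lemma sep_tendsto_E₄ :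
    Filter.Tendsto (fun z : ℍ => ModularForm.E₄ z) atImInfty (nhds 1) := by
  have hh : (0 : ℝ) < 1 := one_pos
  have hΓ := one_mem_strictPeriods_SL
  have hanal := ModularFormClass.analyticAt_cuspFunction_zero ModularForm.E₄ hh hΓ
  have hper := SlashInvariantFormClass.periodic_comp_ofComplex ModularForm.E₄ hΓ
  have h0 : UpperHalfPlane.cuspFunction 1 ModularForm.E₄ 0 = 1 := by
    have := EisensteinSeries.E_qExpansion_coeff_zero (k := 4) (by norm_num) ⟨2, rfl⟩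
    simpa [UpperHalfPlane.qExpansion_coeff] using this
  have := (hanal.continuousAt.tendsto.comp (qParam_tendsto_atImInfty hh)).congr
    (fun τ ↦ SlashInvariantFormClass.eq_cuspFunction ModularForm.E₄ τ hΓ hh.ne')
  rwa [h0] at this

/-- `j` is `SL(2,ℤ)`-invariant. -/
lemma sep_jfun_smul (γ : SL(2, ℤ)) (z : ℍ) : jfun (γ • z) = jfun z := by
  have hmem : (γ : GL (Fin 2) ℝ) ∈ 𝒮ℒ := ⟨γ, rfl⟩
  have h4 := SlashInvariantForm.slash_action_eqn'' ModularForm.E₄ hmem z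
  have h12 := SlashInvariantForm.slash_action_eqn'' CuspForm.discriminant hmem z
  have hd : denom (γ : GL (Fin 2) ℝ) z ≠ 0 := denom_ne_zero _ _
  have hΔ : ModularForm.discriminant z ≠ 0 := ModularForm.discriminant_ne_zero z
  rw [CuspForm.coe_discriminant] at h12
  unfold jfun
  rw [show (γ • z : ℍ) = (γ : GL (Fin 2) ℝ) • z from rfl, h4, h12]
  have e1 : (denom (γ : GL (Fin 2) ℝ) z ^ (4 : ℤ)) ^ 3 = denom (γ : GL (Fin 2) ℝ) z ^ (12 : ℤ) := by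
    rw [← zpow_natCast, ← _root_.zpow_mul]; norm_num
  rw [mul_pow, e1]
  field_simp

open Real in
/-- Two-sided exponential bounds for `j` near `i∞`. -/
lemma sep_exists_bound_jfun : ∃ Y : ℝ, ∀ w : ℍ, Y ≤ w.im →
    (1 / 12) * Real.exp (2 * π * w.im) ≤ ‖jfun w‖ ∧ ‖jfun w‖ ≤ 7 * Real.exp (2 * π * w.im) := by
  obtain ⟨Y₁, hY₁⟩ := exists_bound_discriminant
  have hE := sep_tendsto_E₄.eventually (Metric.ball_mem_nhds 1 (by norm_num : (0 : ℝ) < 1/2))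
  rw [Filter.Eventually, UpperHalfPlane.atImInfty_mem] at hE
  obtain ⟨Y₂, hY₂⟩ := hE
  refine ⟨max Y₁ Y₂, fun w hw => ?_⟩
  obtain ⟨hlow, hupp⟩ := hY₁ w (le_trans (le_max_left _ _) hw)
  have hτ := hY₂ w (le_trans (le_max_right _ _) hw)
  change dist (ModularForm.E₄ w) 1 < 1 / 2 at hτ
  have hsub : ‖ModularForm.E₄ w - 1‖ < 1 / 2 := by rwa [Complex.dist_eq] at hτ
  have h1 := norm_sub_norm_le 1 (ModularForm.E₄ w)
  have h2 := norm_sub_norm_le (ModularForm.E₄ w) 1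
  rw [norm_one] at h1 h2
  rw [norm_sub_rev] at h1
  have hElow : 1 / 2 ≤ ‖ModularForm.E₄ w‖ := by linarith
  have hEupp : ‖ModularForm.E₄ w‖ ≤ 3 / 2 := by linarith
  have hE3low : 1 / 8 ≤ ‖ModularForm.E₄ w‖ ^ 3 := by
    calc (1 / 8 : ℝ) = (1 / 2) ^ 3 := by norm_num
      _ ≤ ‖ModularForm.E₄ w‖ ^ 3 := pow_le_pow_left₀ (by norm_num) hElow 3
  have hE3upp : ‖ModularForm.E₄ w‖ ^ 3 ≤ 27 / 8 := by
    calc ‖ModularForm.E₄ w‖ ^ 3 ≤ (3 / 2) ^ 3 := pow_le_pow_left₀ (norm_nonneg _) hEupp 3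
      _ = 27 / 8 := by norm_num
  have hexp : Real.exp (2 * π * w.im) * Real.exp (-2 * π * w.im) = 1 := by
    rw [← Real.exp_add]; simp
  have hp1 := Real.exp_pos (2 * π * w.im)
  have hp2 := Real.exp_pos (-2 * π * w.im)
  have hΔpos : 0 < ‖ModularForm.discriminant w‖ := by linarith [mul_pos (by norm_num : (0:ℝ) < 1/2) hp2]
  have hnorm : ‖jfun w‖ = ‖ModularForm.E₄ w‖ ^ 3 / ‖ModularForm.discriminant w‖ := by
    unfold jfun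
    rw [norm_div, norm_pow]
  rw [hnorm]
  constructor
  · rw [le_div_iff₀ hΔpos]
    calc 1 / 12 * Real.exp (2 * π * w.im) * ‖ModularForm.discriminant w‖
        ≤ 1 / 12 * Real.exp (2 * π * w.im) * (3 / 2 * Real.exp (-2 * π * w.im)) := by
          gcongr
      _ = 1 / 8 * (Real.exp (2 * π * w.im) * Real.exp (-2 * π * w.im)) := by ring
      _ = 1 / 8 := by rw [hexp]; ring
      _ ≤ ‖ModularForm.E₄ w‖ ^ 3 := hE3low
  · rw [div_le_iff₀ hΔpos]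
    calc ‖ModularForm.E₄ w‖ ^ 3 ≤ 27 / 8 := hE3upp
      _ ≤ 7 / 2 := by norm_num
      _ = 7 * (Real.exp (2 * π * w.im) * Real.exp (-2 * π * w.im)) * (1 / 2) := by
          rw [hexp]; ring
      _ = 7 * Real.exp (2 * π * w.im) * (1 / 2 * Real.exp (-2 * π * w.im)) := by ring
      _ ≤ 7 * Real.exp (2 * π * w.im) * ‖ModularForm.discriminant w‖ := by
          gcongr

/-- `scaleH d` is the action of `diag(d, 1)`. -/
lemma sep_scaleH_eq (d : ℕ) [NeZero d] (h : (((d : ℤ) : ℝ) * ((1 : ℤ) : ℝ)) ≠ 0) (z : ℍ) :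
    scaleH d z = upperGL ((d : ℤ) : ℝ) ((0 : ℤ) : ℝ) ((1 : ℤ) : ℝ) h • z := by
  have hd : (0 : ℝ) < ((d : ℤ) : ℝ) := by
    exact_mod_cast Nat.pos_of_ne_zero (NeZero.ne d)
  have h1 : (0 : ℝ) < ((1 : ℤ) : ℝ) := by norm_num
  apply UpperHalfPlane.ext
  rw [coe_upperGL_smul _ _ _ hd h1 z]
  simp [scaleH]

/-- The Hermite-normal-form decomposition `σ * (g, B; 0, D) = diag(N, 1) * γ` with
`g = gcd(c, N)`, `g D = N`. -/
lemma sep_exists_decomp (N : ℕ) [NeZero N] (γ : SL(2, ℤ)) :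
    ∃ (g D : ℕ) (B : ℤ) (σ : SL(2, ℤ)) (_ : 0 < g) (_ : 0 < D)
      (hne1 : (((g : ℤ) : ℝ) * ((D : ℤ) : ℝ)) ≠ 0)
      (hne2 : (((N : ℤ) : ℝ) * ((1 : ℤ) : ℝ)) ≠ 0),
      N = g * D ∧ (g : ℤ) ∣ γ 1 0 ∧
      (σ : GL (Fin 2) ℝ) * upperGL ((g : ℤ) : ℝ) (B : ℝ) ((D : ℤ) : ℝ) hne1 =
        upperGL ((N : ℤ) : ℝ) ((0 : ℤ) : ℝ) ((1 : ℤ) : ℝ) hne2 * (γ : GL (Fin 2) ℝ) := by
  have hN0 : 0 < N := Nat.pos_of_ne_zero (NeZero.ne N)
  have hdet : γ 0 0 * γ 1 1 - γ 0 1 * γ 1 0 = 1 := by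
    have := γ.det_coe
    rwa [Matrix.det_fin_two] at this
  set g : ℕ := Int.gcd (γ 1 0) N with hg_def
  have hg_pos : 0 < g := Int.gcd_pos_of_ne_zero_right _ (by exact_mod_cast hN0.ne')
  have hgN : (g : ℤ) ∣ (N : ℤ) := Int.gcd_dvd_right _ _
  have hgc : (g : ℤ) ∣ γ 1 0 := Int.gcd_dvd_left _ _
  obtain ⟨D', hD'⟩ := hgN
  obtain ⟨c₁, hc₁⟩ := hgc
  have hD'pos : 0 < D' := by
    have : (0 : ℤ) < (g : ℤ) * D' := by rw [← hD']; exact_mod_cast hN0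
    exact pos_of_mul_pos_left (by rwa [mul_comm] at this) (by exact_mod_cast hg_pos.le)
  obtain ⟨D, rfl⟩ : ∃ D : ℕ, (D : ℤ) = D' := ⟨D'.toNat, Int.toNat_of_nonneg hD'pos.le⟩
  have hDpos : 0 < D := by exact_mod_cast hD'pos
  have hND : N = g * D := by exact_mod_cast hD'
  have hcop1 : IsCoprime c₁ (D : ℤ) := by
    have h := Int.isCoprime_iff_gcd_eq_one.mpr
      (Int.gcd_div_gcd_div_gcd (i := γ 1 0) (j := (N : ℤ)) hg_pos)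
    rw [← hg_def] at h
    have e1 : γ 1 0 / (g : ℤ) = c₁ := by
      rw [hc₁]; exact Int.mul_ediv_cancel_left _ (by exact_mod_cast hg_pos.ne')
    have e2 : (N : ℤ) / (g : ℤ) = D := by
      rw [hD']; exact Int.mul_ediv_cancel_left _ (by exact_mod_cast hg_pos.ne')
    rwa [e1, e2] at h
  have hcop2 : IsCoprime (γ 0 0) c₁ := by
    refine ⟨γ 1 1, -(γ 0 1 * g), ?_⟩
    rw [hc₁] at hdet
    linear_combination hdet
  have hcop : IsCoprime ((D : ℤ) * γ 0 0) c₁ := IsCoprime.mul_left hcop1.symm hcop2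
  obtain ⟨σ, hσ0, hσ1⟩ := hcop.exists_SL2_col 0
  have hσdet : σ 0 0 * σ 1 1 - σ 0 1 * σ 1 0 = 1 := by
    have := σ.det_coe
    rwa [Matrix.det_fin_two] at this
  rw [hσ0, hσ1] at hσdet
  set B : ℤ := σ 1 1 * N * γ 0 1 - σ 0 1 * γ 1 1 with hB
  have hne1 : (((g : ℤ) : ℝ) * ((D : ℤ) : ℝ)) ≠ 0 := by simp [hg_pos.ne', hDpos.ne']
  have hne2 : (((N : ℤ) : ℝ) * ((1 : ℤ) : ℝ)) ≠ 0 := by simp [hN0.ne']
  have key := mapGL_mul_upperGL_eq σ γ g B D N 0 1 hne1 hne2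
    (by linear_combination (g : ℤ) * hσ0 - (γ 0 0) * hD')
    (by linear_combination (B : ℤ) * hσ0 + ((D : ℤ) * γ 0 0) * hB + ((N : ℤ) * γ 0 1) * hσdet
          - (σ 0 1 * (D : ℤ)) * hdet - (σ 0 1 * (D : ℤ) * γ 0 1) * hc₁
          + (γ 0 1 * σ 0 1 * c₁) * hD')
    (by linear_combination (g : ℤ) * hσ1 - hc₁)
    (by linear_combination (B : ℤ) * hσ1 + c₁ * hB + (γ 1 1) * hσdet
          - (σ 1 1 * (D : ℤ)) * hdet - (σ 1 1 * (D : ℤ) * γ 0 1) * hc₁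
          + (c₁ * σ 1 1 * γ 0 1) * hD')
  exact ⟨g, D, B, σ, hg_pos, hDpos, hne1, hne2, hND, ⟨c₁, hc₁⟩, key⟩

open Real in
/-- If `j ∘ (g, B; 0, D) = j ∘ diag(N, 1)` with `g D = N`, then `D = 1`. -/
lemma sep_eq_one_of_jfun_eq (N g D : ℕ) (B : ℤ) (hg : 0 < g) (hD : 0 < D)
    (hN : N = g * D)
    (hne1 : (((g : ℤ) : ℝ) * ((D : ℤ) : ℝ)) ≠ 0) (hne2 : (((N : ℤ) : ℝ) * ((1 : ℤ) : ℝ)) ≠ 0)
    (h : ∀ z : ℍ, jfun (upperGL ((g : ℤ) : ℝ) (B : ℝ) ((D : ℤ) : ℝ) hne1 • z) =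
      jfun (upperGL ((N : ℤ) : ℝ) ((0 : ℤ) : ℝ) ((1 : ℤ) : ℝ) hne2 • z)) :
    D = 1 := by
  by_contra hD1
  have hD2 : 2 ≤ D := by omega
  have hgR : (0 : ℝ) < ((g : ℤ) : ℝ) := by exact_mod_cast hg
  have hDR : (0 : ℝ) < ((D : ℤ) : ℝ) := by exact_mod_cast hD
  have hNpos : 0 < N := by rw [hN]; exact Nat.mul_pos hg hD
  have hNR : (0 : ℝ) < ((N : ℤ) : ℝ) := by exact_mod_cast hNpos
  have h1R : (0 : ℝ) < ((1 : ℤ) : ℝ) := by norm_num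
  have hNgD : ((N : ℤ) : ℝ) = ((g : ℤ) : ℝ) * ((D : ℤ) : ℝ) := by
    rw [hN]; push_cast; ring
  obtain ⟨Y, hY⟩ := sep_exists_bound_jfun
  set ε : ℝ := ((N : ℤ) : ℝ) - ((g : ℤ) : ℝ) / ((D : ℤ) : ℝ) with hε
  have hD2R : (2 : ℝ) ≤ ((D : ℤ) : ℝ) := by exact_mod_cast hD2
  have hεpos : 0 < ε := by
    rw [hε, hNgD]
    have h1 : ((g : ℤ) : ℝ) / ((D : ℤ) : ℝ) ≤ ((g : ℤ) : ℝ) / 2 :=
      div_le_div_of_nonneg_left hgR.le (by norm_num) hD2R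
    nlinarith
  set y : ℝ := max (max (Y * ((D : ℤ) : ℝ) / ((g : ℤ) : ℝ)) (Y / ((N : ℤ) : ℝ)))
    (max 1 (84 / (2 * π * ε))) with hy
  have hy1 : 1 ≤ y := le_trans (le_max_left _ _) (le_max_right _ _)
  have hypos : 0 < y := lt_of_lt_of_le one_pos hy1
  have hyA : Y * ((D : ℤ) : ℝ) / ((g : ℤ) : ℝ) ≤ y :=
    le_trans (le_max_left _ _) (le_max_left _ _)
  have hyB : Y / ((N : ℤ) : ℝ) ≤ y := le_trans (le_max_right _ _) (le_max_left _ _)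
  have hyC : 84 / (2 * π * ε) ≤ y :=
    le_trans (le_max_right _ _) (le_max_right _ _)
  let τ : ℍ := ⟨⟨0, y⟩, by simpa using hypos⟩
  have hτim : τ.im = y := rfl
  have hval := h τ
  have him1 := im_upperGL_smul ((g : ℤ) : ℝ) (B : ℝ) ((D : ℤ) : ℝ) hgR hDR τ
  have him2 := im_upperGL_smul ((N : ℤ) : ℝ) ((0 : ℤ) : ℝ) ((1 : ℤ) : ℝ) hNR h1R τ
  rw [hτim] at him1 him2
  set w₁ : ℍ := upperGL ((g : ℤ) : ℝ) (B : ℝ) ((D : ℤ) : ℝ) (mul_pos hgR hDR).ne' • τ with hw₁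
  set w₂ : ℍ := upperGL ((N : ℤ) : ℝ) ((0 : ℤ) : ℝ) ((1 : ℤ) : ℝ) (mul_pos hNR h1R).ne' • τ
    with hw₂
  have hYw₁ : Y ≤ w₁.im := by
    rw [him1, le_div_iff₀ hDR]
    rw [div_le_iff₀ hgR] at hyA
    linarith
  have hYw₂ : Y ≤ w₂.im := by
    rw [him2]
    rw [div_le_iff₀ hNR] at hyB
    simp only [Int.cast_one, div_one]
    linarith
  obtain ⟨-, hupp⟩ := hY w₁ hYw₁
  obtain ⟨hlow, -⟩ := hY w₂ hYw₂
  have hkey : ‖jfun w₁‖ = ‖jfun w₂‖ := congrArg norm hval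
  have hineq : (1 / 12) * Real.exp (2 * π * w₂.im) ≤ 7 * Real.exp (2 * π * w₁.im) := by
    calc (1 / 12) * Real.exp (2 * π * w₂.im) ≤ ‖jfun w₂‖ := hlow
      _ = ‖jfun w₁‖ := hkey.symm
      _ ≤ 7 * Real.exp (2 * π * w₁.im) := hupp
  rw [him1, him2] at hineq
  simp only [Int.cast_one, div_one] at hineq
  have hexp : Real.exp (2 * π * ε * y) ≤ 84 := by
    have hsplit : Real.exp (2 * π * (((N : ℤ) : ℝ) * y)) =
        Real.exp (2 * π * ε * y) * Real.exp (2 * π * (((g : ℤ) : ℝ) * y / ((D : ℤ) : ℝ))) := by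
      rw [← Real.exp_add]
      congr 1
      rw [hε]
      field_simp
      ring
    rw [hsplit] at hineq
    have hpos := Real.exp_pos (2 * π * (((g : ℤ) : ℝ) * y / ((D : ℤ) : ℝ)))
    have : Real.exp (2 * π * ε * y) * Real.exp (2 * π * (((g : ℤ) : ℝ) * y / ((D : ℤ) : ℝ))) ≤
        84 * Real.exp (2 * π * (((g : ℤ) : ℝ) * y / ((D : ℤ) : ℝ))) := by
      linarith
    exact le_of_mul_le_mul_right this hpos
  have hlin : 2 * π * ε * y + 1 ≤ Real.exp (2 * π * ε * y) := Real.add_one_le_exp _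
  have hbig : 84 ≤ 2 * π * ε * y := by
    have hpe : 0 < 2 * π * ε := by positivity
    rw [div_le_iff₀ hpe] at hyC
    linarith
  linarith

/-- Part (2) of the separation statement: `z ↦ j(d z)` is `Γ₀(N)`-invariant for `d ∣ N`. -/
lemma sep_jfun_scaleH_smul (N : ℕ) (d : ℕ) [NeZero d] (hdN : d ∣ N) (γ : SL(2, ℤ))
    (hγ : γ ∈ Gamma0 N) (z : ℍ) : jfun (scaleH d (γ • z)) = jfun (scaleH d z) := by
  have hd0 : 0 < d := Nat.pos_of_ne_zero (NeZero.ne d)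
  have hne : (((d : ℤ) : ℝ) * ((1 : ℤ) : ℝ)) ≠ 0 := by simp [hd0.ne']
  rw [Gamma0_mem, ZMod.intCast_zmod_eq_zero_iff_dvd] at hγ
  have hdc : (d : ℤ) ∣ γ 1 0 := dvd_trans (by exact_mod_cast hdN) hγ
  obtain ⟨c', hc'⟩ := hdc
  have hdet : γ 0 0 * γ 1 1 - γ 0 1 * γ 1 0 = 1 := by
    have := γ.det_coe
    rwa [Matrix.det_fin_two] at this
  let δ : SL(2, ℤ) := ⟨!![γ 0 0, d * γ 0 1; c', γ 1 1], by
    rw [Matrix.det_fin_two_of]
    rw [hc'] at hdet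
    linear_combination hdet⟩
  have key := mapGL_mul_upperGL_eq δ γ d 0 1 d 0 1 hne hne
    (by simp [δ]; ring) (by simp [δ]) (by simp [δ]; rw [hc']; ring) (by simp [δ])
  calc jfun (scaleH d (γ • z))
      = jfun (upperGL ((d : ℤ) : ℝ) ((0 : ℤ) : ℝ) ((1 : ℤ) : ℝ) hne • (γ • z)) := by
        rw [sep_scaleH_eq d hne]
    _ = jfun ((upperGL ((d : ℤ) : ℝ) ((0 : ℤ) : ℝ) ((1 : ℤ) : ℝ) hne * (γ : GL (Fin 2) ℝ)) • z) := by
        rw [mul_smul]; rfl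
    _ = jfun (((δ : GL (Fin 2) ℝ) * upperGL ((d : ℤ) : ℝ) ((0 : ℤ) : ℝ) ((1 : ℤ) : ℝ) hne) • z) := by
        rw [key]
    _ = jfun (δ • (upperGL ((d : ℤ) : ℝ) ((0 : ℤ) : ℝ) ((1 : ℤ) : ℝ) hne • z)) := by
        rw [mul_smul]; rfl
    _ = jfun (upperGL ((d : ℤ) : ℝ) ((0 : ℤ) : ℝ) ((1 : ℤ) : ℝ) hne • z) := sep_jfun_smul δ _
    _ = jfun (scaleH d z) := by rw [sep_scaleH_eq d hne]

/-- Part (1) of the separation statement: the stabilizer of `z ↦ j(N z)` is contained in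
`Γ₀(N)`. -/
lemma sep_mem_Gamma0 (N : ℕ) [NeZero N] (γ : SL(2, ℤ))
    (hγ : ∀ z : ℍ, jfun (scaleH N (γ • z)) = jfun (scaleH N z)) : γ ∈ Gamma0 N := by
  obtain ⟨g, D, B, σ, hg, hD, hne1, hne2, hND, hgc, key⟩ := sep_exists_decomp N γ
  have hfun : ∀ z : ℍ, jfun (upperGL ((g : ℤ) : ℝ) (B : ℝ) ((D : ℤ) : ℝ) hne1 • z) =
      jfun (upperGL ((N : ℤ) : ℝ) ((0 : ℤ) : ℝ) ((1 : ℤ) : ℝ) hne2 • z) := by
    intro z
    calc jfun (upperGL ((g : ℤ) : ℝ) (B : ℝ) ((D : ℤ) : ℝ) hne1 • z)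
        = jfun (σ • (upperGL ((g : ℤ) : ℝ) (B : ℝ) ((D : ℤ) : ℝ) hne1 • z)) :=
          (sep_jfun_smul σ _).symm
      _ = jfun (((σ : GL (Fin 2) ℝ) * upperGL ((g : ℤ) : ℝ) (B : ℝ) ((D : ℤ) : ℝ) hne1) • z) := by
          rw [mul_smul]; rfl
      _ = jfun ((upperGL ((N : ℤ) : ℝ) ((0 : ℤ) : ℝ) ((1 : ℤ) : ℝ) hne2 *
            (γ : GL (Fin 2) ℝ)) • z) := by rw [key]
      _ = jfun (upperGL ((N : ℤ) : ℝ) ((0 : ℤ) : ℝ) ((1 : ℤ) : ℝ) hne2 • (γ • z)) := by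
          rw [mul_smul]; rfl
      _ = jfun (scaleH N (γ • z)) := by rw [sep_scaleH_eq N hne2]
      _ = jfun (scaleH N z) := hγ z
      _ = jfun (upperGL ((N : ℤ) : ℝ) ((0 : ℤ) : ℝ) ((1 : ℤ) : ℝ) hne2 • z) := by
          rw [sep_scaleH_eq N hne2]
  have hD1 : D = 1 := sep_eq_one_of_jfun_eq N g D B hg hD hND hne1 hne2 hfun
  rw [Gamma0_mem, ZMod.intCast_zmod_eq_zero_iff_dvd]
  rw [hD1, mul_one] at hND
  rw [hND]
  exact hgc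

/-- **GEN-13 (AN-SEP)**: the stabilizer of `z ↦ j(N z)` in `SL(2,ℤ)` is exactly `Γ₀(N)`, and all
`z ↦ j(d z)`, `d ∣ N`, are `Γ₀(N)`-invariant. -/
theorem separation (N : ℕ) [NeZero N] : Fermat.Agent.H23.SeparationStatement N :=
  ⟨fun γ hγ => sep_mem_Gamma0 N γ hγ,
    fun d hd hdN γ hγ z => @sep_jfun_scaleH_smul N d hd hdN γ hγ z⟩

end Fermat.Agent.H82
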