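/-
P-GENUS (S24), support for GEN-14 / GEN-15: invariance, periodicity and growth at `i∞` of the
functions `z ↦ Θ r (γ • z)`, `r ∈ Rsub N`, `γ ∈ SL(2,ℤ)`.
-/
import Fermat.Agent.H82.Separation

set_option autoImplicit false

namespace Fermat.Agent.H82

open UpperHalfPlane ModularForm CongruenceSubgroup MatrixGroups Matrix
open Fermat.Agent.H18 Fermat.Agent.H23

/-- For every `d ≥ 1` and `γ ∈ SL(2,ℤ)`, `z ↦ j(d (γ z))` is `z ↦ j((g z + B) / D)` with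
`g D = d`. -/
lemma cg_jfun_scaleH_smul_eq (d : ℕ) [NeZero d] (γ : SL(2, ℤ)) :
    ∃ (g D : ℕ) (B : ℤ) (_ : 0 < g) (_ : 0 < D)
      (hne1 : (((g : ℤ) : ℝ) * ((D : ℤ) : ℝ)) ≠ 0),
      d = g * D ∧ ∀ z : ℍ, jfun (scaleH d (γ • z)) =
        jfun (upperGL ((g : ℤ) : ℝ) (B : ℝ) ((D : ℤ) : ℝ) hne1 • z) := by
  obtain ⟨g, D, B, σ, hg, hD, hne1, hne2, hND, -, key⟩ := sep_exists_decomp d γ
  refine ⟨g, D, B, hg, hD, hne1, hND, fun z => ?_⟩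
  symm
  calc jfun (upperGL ((g : ℤ) : ℝ) (B : ℝ) ((D : ℤ) : ℝ) hne1 • z)
      = jfun (σ • (upperGL ((g : ℤ) : ℝ) (B : ℝ) ((D : ℤ) : ℝ) hne1 • z)) :=
        (sep_jfun_smul σ _).symm
    _ = jfun (((σ : GL (Fin 2) ℝ) * upperGL ((g : ℤ) : ℝ) (B : ℝ) ((D : ℤ) : ℝ) hne1) • z) := by
        rw [mul_smul]; rfl
    _ = jfun ((upperGL ((d : ℤ) : ℝ) ((0 : ℤ) : ℝ) ((1 : ℤ) : ℝ) hne2 *
          (γ : GL (Fin 2) ℝ)) • z) := by rw [key]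
    _ = jfun (upperGL ((d : ℤ) : ℝ) ((0 : ℤ) : ℝ) ((1 : ℤ) : ℝ) hne2 • (γ • z)) := by
        rw [mul_smul]; rfl
    _ = jfun (scaleH d (γ • z)) := by rw [sep_scaleH_eq d hne2]

open Real in
/-- Exponential growth bound for `z ↦ j(d (γ z))` at `i∞`. -/
lemma cg_jfun_scaleH_smul_bound (d : ℕ) [NeZero d] (γ : SL(2, ℤ)) :
    ∃ Y : ℝ, ∀ z : ℍ, Y ≤ z.im →
      ‖jfun (scaleH d (γ • z))‖ ≤ 7 * Real.exp (2 * π * d * z.im) := by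
  obtain ⟨g, D, B, hg, hD, hne1, hdgD, hz⟩ := cg_jfun_scaleH_smul_eq d γ
  obtain ⟨Y₀, hY₀⟩ := sep_exists_bound_jfun
  have hgR : (0 : ℝ) < ((g : ℤ) : ℝ) := by exact_mod_cast hg
  have hDR : (0 : ℝ) < ((D : ℤ) : ℝ) := by exact_mod_cast hD
  have hD1 : (1 : ℝ) ≤ ((D : ℤ) : ℝ) := by exact_mod_cast hD
  have hg1 : (1 : ℝ) ≤ ((g : ℤ) : ℝ) := by exact_mod_cast hg
  have hdR : ((d : ℕ) : ℝ) = ((g : ℤ) : ℝ) * ((D : ℤ) : ℝ) := by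
    rw [hdgD]; push_cast; ring
  refine ⟨max 0 (Y₀ * ((D : ℤ) : ℝ)), fun z hz' => ?_⟩
  have hz0 : 0 ≤ z.im := z.im_pos.le
  have hzY : Y₀ * ((D : ℤ) : ℝ) ≤ z.im := le_trans (le_max_right _ _) hz'
  rw [hz z]
  set w : ℍ := upperGL ((g : ℤ) : ℝ) (B : ℝ) ((D : ℤ) : ℝ) hne1 • z with hw
  have him : w.im = ((g : ℤ) : ℝ) * z.im / ((D : ℤ) : ℝ) :=
    im_upperGL_smul ((g : ℤ) : ℝ) (B : ℝ) ((D : ℤ) : ℝ) hgR hDR z
  have hYw : Y₀ ≤ w.im := by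
    rw [him, le_div_iff₀ hDR]
    calc Y₀ * ((D : ℤ) : ℝ) ≤ z.im := hzY
      _ ≤ ((g : ℤ) : ℝ) * z.im := by nlinarith
  have hle : w.im ≤ d * z.im := by
    rw [him, hdR, div_le_iff₀ hDR]
    have h0 : 0 ≤ ((g : ℤ) : ℝ) * z.im := by positivity
    have h1 : ((g : ℤ) : ℝ) * z.im ≤ ((g : ℤ) : ℝ) * z.im * ((D : ℤ) : ℝ) :=
      le_mul_of_one_le_right h0 hD1
    have h2 : ((g : ℤ) : ℝ) * z.im * ((D : ℤ) : ℝ) ≤
        ((g : ℤ) : ℝ) * z.im * ((D : ℤ) : ℝ) * ((D : ℤ) : ℝ) :=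
      le_mul_of_one_le_right (by positivity) hD1
    calc ((g : ℤ) : ℝ) * z.im ≤ ((g : ℤ) : ℝ) * z.im * ((D : ℤ) : ℝ) * ((D : ℤ) : ℝ) :=
          h1.trans h2
      _ = ((g : ℤ) : ℝ) * ((D : ℤ) : ℝ) * z.im * ((D : ℤ) : ℝ) := by ring
  obtain ⟨-, hupp⟩ := hY₀ w hYw
  calc ‖jfun w‖ ≤ 7 * Real.exp (2 * π * w.im) := hupp
    _ ≤ 7 * Real.exp (2 * π * d * z.im) := by
        have hpi : 0 < π := Real.pi_pos
        have : 2 * π * w.im ≤ 2 * π * d * z.im := by nlinarith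
        gcongr

/-- Induction principle for `Rsub N`: generators `j(q^d)`, constants, sums, products. -/
lemma cg_Rsub_induction (N : ℕ) [NeZero N] (P : ↥(Rsub N) → Prop)
    (hgen : ∀ (d : ℕ) (_ : NeZero d) (hd : d ∣ N) (h : jBarD N d hd ∈ Rsub N),
      P ⟨jBarD N d hd, h⟩)
    (hconst : ∀ c : AlgebraicClosure ℚ, P (algebraMap (AlgebraicClosure ℚ) ↥(Rsub N) c))
    (hadd : ∀ a b, P a → P b → P (a + b))
    (hmul : ∀ a b, P a → P b → P (a * b)) (r : ↥(Rsub N)) : P r := by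
  obtain ⟨x, hx⟩ := r
  have hx' : x ∈ Algebra.adjoin (AlgebraicClosure ℚ)
      {x | ∃ (d : ℕ) (_ : NeZero d) (hd : d ∣ N), x = jBarD N d hd} := hx
  refine Algebra.adjoin_induction
    (p := fun x (hx : x ∈ Algebra.adjoin (AlgebraicClosure ℚ)
      {x | ∃ (d : ℕ) (_ : NeZero d) (hd : d ∣ N), x = jBarD N d hd}) =>
        P (⟨x, hx⟩ : ↥(Rsub N))) ?_ ?_ ?_ ?_ hx'
  · rintro y ⟨d, hd0, hd, rfl⟩
    exact hgen d hd0 hd _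
  · intro c
    exact hconst c
  · intro a b ha hb pa pb
    exact hadd ⟨a, ha⟩ ⟨b, hb⟩ pa pb
  · intro a b ha hb pa pb
    exact hmul ⟨a, ha⟩ ⟨b, hb⟩ pa pb

/-- Every `Θ r`, `r ∈ Rsub N`, is `Γ₀(N)`-invariant. -/
theorem cg_theta_invariant (N : ℕ) [NeZero N] (ι : AlgebraicClosure ℚ →+* ℂ)
    (Θ : ↥(Rsub N) →+* (ℍ → ℂ))
    (hc : ∀ c : AlgebraicClosure ℚ,
      Θ (algebraMap (AlgebraicClosure ℚ) ↥(Rsub N) c) = fun _ => ι c)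
    (hJ : ∀ (d : ℕ) (_ : NeZero d) (hd : d ∣ N) (h : jBarD N d hd ∈ Rsub N),
      Θ ⟨jBarD N d hd, h⟩ = fun z => jfun (scaleH d z))
    (r : ↥(Rsub N)) (β : SL(2, ℤ)) (hβ : β ∈ Gamma0 N) (z : ℍ) :
    Θ r (β • z) = Θ r z := by
  revert z
  refine cg_Rsub_induction N (fun r => ∀ z : ℍ, Θ r (β • z) = Θ r z) ?_ ?_ ?_ ?_ r
  · intro d hd0 hd h z
    rw [hJ d hd0 hd h]
    exact @sep_jfun_scaleH_smul N d hd0 hd β hβ z
  · intro c z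
    rw [hc c]
  · intro a b ha hb z
    rw [map_add, Pi.add_apply, Pi.add_apply, ha z, hb z]
  · intro a b ha hb z
    rw [map_mul, Pi.mul_apply, Pi.mul_apply, ha z, hb z]

/-- `z ↦ Θ r (γ • z)` is invariant under `z ↦ T ^ N • z` (i.e. `z ↦ z + N`). -/
theorem cg_theta_periodic (N : ℕ) [NeZero N] (ι : AlgebraicClosure ℚ →+* ℂ)
    (Θ : ↥(Rsub N) →+* (ℍ → ℂ))
    (hc : ∀ c : AlgebraicClosure ℚ,
      Θ (algebraMap (AlgebraicClosure ℚ) ↥(Rsub N) c) = fun _ => ι c)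
    (hJ : ∀ (d : ℕ) (_ : NeZero d) (hd : d ∣ N) (h : jBarD N d hd ∈ Rsub N),
      Θ ⟨jBarD N d hd, h⟩ = fun z => jfun (scaleH d z))
    (r : ↥(Rsub N)) (γ : SL(2, ℤ)) (z : ℍ) :
    Θ r (γ • (ModularGroup.T ^ N • z)) = Θ r (γ • z) := by
  have hTN : ModularGroup.T ^ N ∈ Gamma N := by
    rw [Gamma_mem]
    have := ModularGroup.coe_T_zpow (N : ℤ)
    rw [zpow_natCast] at this
    simp [this]
  have hconj' : γ * ModularGroup.T ^ N * γ⁻¹ ∈ Gamma N := (Gamma_normal N).conj_mem _ hTN γ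
  have hconj : γ * ModularGroup.T ^ N * γ⁻¹ ∈ Gamma0 N := by
    rw [Gamma_mem] at hconj'
    rw [Gamma0_mem]
    exact hconj'.2.2.1
  have h := cg_theta_invariant N ι Θ hc hJ r _ hconj (γ • z)
  have e : (γ * ModularGroup.T ^ N * γ⁻¹) • (γ • z) = γ • (ModularGroup.T ^ N • z) := by
    rw [← mul_smul, ← mul_smul, inv_mul_cancel_right]
  rw [← e]
  exact h

open Real in
/-- Exponential growth at `i∞` of `z ↦ Θ r (γ • z)`: at most `C e^{2π M Im z}`. -/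
theorem cg_theta_growth (N : ℕ) [NeZero N] (ι : AlgebraicClosure ℚ →+* ℂ)
    (Θ : ↥(Rsub N) →+* (ℍ → ℂ))
    (hc : ∀ c : AlgebraicClosure ℚ,
      Θ (algebraMap (AlgebraicClosure ℚ) ↥(Rsub N) c) = fun _ => ι c)
    (hJ : ∀ (d : ℕ) (_ : NeZero d) (hd : d ∣ N) (h : jBarD N d hd ∈ Rsub N),
      Θ ⟨jBarD N d hd, h⟩ = fun z => jfun (scaleH d z))
    (r : ↥(Rsub N)) (γ : SL(2, ℤ)) :
    ∃ (M : ℕ) (C Y : ℝ), 0 ≤ C ∧ ∀ z : ℍ, Y ≤ z.im →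
      ‖Θ r (γ • z)‖ ≤ C * Real.exp (2 * π * M * z.im) := by
  refine cg_Rsub_induction N (fun r => ∃ (M : ℕ) (C Y : ℝ), 0 ≤ C ∧ ∀ z : ℍ, Y ≤ z.im →
      ‖Θ r (γ • z)‖ ≤ C * Real.exp (2 * π * M * z.im)) ?_ ?_ ?_ ?_ r
  · intro d hd0 hd h
    obtain ⟨Y, hY⟩ := @cg_jfun_scaleH_smul_bound d hd0 γ
    refine ⟨d, 7, Y, by norm_num, fun z hz => ?_⟩
    rw [hJ d hd0 hd h]
    exact hY z hz
  · intro c
    refine ⟨0, ‖ι c‖, 0, norm_nonneg _, fun z _ => ?_⟩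
    rw [hc c]
    simp
  · rintro a b ⟨M₁, C₁, Y₁, hC₁, h₁⟩ ⟨M₂, C₂, Y₂, hC₂, h₂⟩
    refine ⟨max M₁ M₂, C₁ + C₂, max Y₁ Y₂, add_nonneg hC₁ hC₂, fun z hz => ?_⟩
    have hz1 : Y₁ ≤ z.im := le_trans (le_max_left _ _) hz
    have hz2 : Y₂ ≤ z.im := le_trans (le_max_right _ _) hz
    have hpi : 0 < π := Real.pi_pos
    have him : 0 < z.im := z.im_pos
    have hM1 : ((M₁ : ℕ) : ℝ) ≤ ((max M₁ M₂ : ℕ) : ℝ) := by exact_mod_cast le_max_left _ _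
    have hM2 : ((M₂ : ℕ) : ℝ) ≤ ((max M₁ M₂ : ℕ) : ℝ) := by exact_mod_cast le_max_right _ _
    have e1 : Real.exp (2 * π * M₁ * z.im) ≤ Real.exp (2 * π * (max M₁ M₂ : ℕ) * z.im) := by
      apply Real.exp_le_exp.mpr
      have : 0 ≤ 2 * π * z.im := by positivity
      nlinarith
    have e2 : Real.exp (2 * π * M₂ * z.im) ≤ Real.exp (2 * π * (max M₁ M₂ : ℕ) * z.im) := by
      apply Real.exp_le_exp.mpr
      have : 0 ≤ 2 * π * z.im := by positivity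
      nlinarith
    rw [map_add, Pi.add_apply]
    calc ‖Θ a (γ • z) + Θ b (γ • z)‖ ≤ ‖Θ a (γ • z)‖ + ‖Θ b (γ • z)‖ := norm_add_le _ _
      _ ≤ C₁ * Real.exp (2 * π * M₁ * z.im) + C₂ * Real.exp (2 * π * M₂ * z.im) :=
          add_le_add (h₁ z hz1) (h₂ z hz2)
      _ ≤ C₁ * Real.exp (2 * π * (max M₁ M₂ : ℕ) * z.im) +
            C₂ * Real.exp (2 * π * (max M₁ M₂ : ℕ) * z.im) :=
          add_le_add (mul_le_mul_of_nonneg_left e1 hC₁) (mul_le_mul_of_nonneg_left e2 hC₂)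
      _ = (C₁ + C₂) * Real.exp (2 * π * (max M₁ M₂ : ℕ) * z.im) := by ring
  · rintro a b ⟨M₁, C₁, Y₁, hC₁, h₁⟩ ⟨M₂, C₂, Y₂, hC₂, h₂⟩
    refine ⟨M₁ + M₂, C₁ * C₂, max Y₁ Y₂, mul_nonneg hC₁ hC₂, fun z hz => ?_⟩
    have hz1 : Y₁ ≤ z.im := le_trans (le_max_left _ _) hz
    have hz2 : Y₂ ≤ z.im := le_trans (le_max_right _ _) hz
    rw [map_mul, Pi.mul_apply, norm_mul]
    calc ‖Θ a (γ • z)‖ * ‖Θ b (γ • z)‖
        ≤ (C₁ * Real.exp (2 * π * M₁ * z.im)) * (C₂ * Real.exp (2 * π * M₂ * z.im)) :=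
          mul_le_mul (h₁ z hz1) (h₂ z hz2) (norm_nonneg _)
            (mul_nonneg hC₁ (Real.exp_pos _).le)
      _ = C₁ * C₂ * (Real.exp (2 * π * M₁ * z.im) * Real.exp (2 * π * M₂ * z.im)) := by ring
      _ = C₁ * C₂ * Real.exp (2 * π * ((M₁ + M₂ : ℕ) : ℝ) * z.im) := by
          rw [← Real.exp_add]
          congr 2
          push_cast
          ring

end Fermat.Agent.H82
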