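/-
P-GENUS (S24), support for GEN-15: the cusp function of a periodic holomorphic function of at most
exponential growth at `i∞` is meromorphic at `0`.
-/
import Mathlib

set_option autoImplicit false

namespace Fermat.Agent.H82

open Function Complex Filter UpperHalfPlane
open scoped Topology Real

/-- If `f` is `h`-periodic, holomorphic near `i∞` and `f · 𝕢 ^ M` is bounded near `i∞`, then
`cuspFunction h (f · 𝕢 ^ M)` is analytic at `0`. -/
theorem cm_analyticAt_cuspFunction_mul {h : ℝ} (hh : 0 < h) {f : ℂ → ℂ} (hf : Periodic f h)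
    (h_hol : ∀ᶠ z in comap Complex.im atTop, DifferentiableAt ℂ f z) (M : ℕ)
    (h_bd : BoundedAtFilter (comap Complex.im atTop)
      (fun z => f z * Periodic.qParam h z ^ M)) :
    AnalyticAt ℂ (Periodic.cuspFunction h (fun z => f z * Periodic.qParam h z ^ M)) 0 := by
  set g : ℂ → ℂ := fun z => f z * Periodic.qParam h z ^ M with hg
  have hqper : ∀ z : ℂ, Periodic.qParam h (z + h) = Periodic.qParam h z := by
    intro z
    have hh' : (h : ℂ) ≠ 0 := by exact_mod_cast hh.ne'
    simp only [Periodic.qParam]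
    have : 2 * (π : ℂ) * Complex.I * (z + h) / h =
        2 * π * Complex.I * z / h + 2 * π * Complex.I := by
      field_simp
    rw [this, Complex.exp_add, Complex.exp_two_pi_mul_I, mul_one]
  have hgper : Periodic g h := by
    intro z
    simp only [hg]
    rw [hf z, hqper z]
  have hg_hol : ∀ᶠ z in comap Complex.im atTop, DifferentiableAt ℂ g z := by
    filter_upwards [h_hol] with z hz
    exact hz.mul ((Periodic.differentiable_qParam (h := h)).differentiableAt.pow M)
  have h0 := Periodic.differentiableAt_cuspFunction_zero hh hgper hg_hol h_bd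
  have hne := Periodic.eventually_differentiableAt_cuspFunction_nhds_ne_zero hh hgper hg_hol
  have hev : ∀ᶠ q in 𝓝 (0 : ℂ), DifferentiableAt ℂ (Periodic.cuspFunction h g) q := by
    rw [eventually_nhdsWithin_iff] at hne
    filter_upwards [hne] with q hq
    by_cases hq0 : q = 0
    · rw [hq0]; exact h0
    · exact hq hq0
  exact Complex.analyticAt_iff_eventually_differentiableAt.mpr hev

/-- For `q ≠ 0`: `cuspFunction h (f · 𝕢 ^ M) q = cuspFunction h f q * q ^ M`. -/
theorem cm_cuspFunction_mul_qParam_pow {h : ℝ} (hh : 0 < h) (f : ℂ → ℂ) (M : ℕ) {q : ℂ}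
    (hq : q ≠ 0) :
    Periodic.cuspFunction h (fun z => f z * Periodic.qParam h z ^ M) q =
      Periodic.cuspFunction h f q * q ^ M := by
  rw [Periodic.cuspFunction_eq_of_nonzero _ _ hq, Periodic.cuspFunction_eq_of_nonzero _ _ hq,
    Periodic.qParam_right_inv hh.ne' hq]

/-- If `f` is `h`-periodic, holomorphic near `i∞` and `f · 𝕢 ^ M` is bounded near `i∞`, then the
cusp function of `f` is meromorphic at `0`. -/
theorem cm_meromorphicAt_cuspFunction {h : ℝ} (hh : 0 < h) {f : ℂ → ℂ} (hf : Periodic f h)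
    (h_hol : ∀ᶠ z in comap Complex.im atTop, DifferentiableAt ℂ f z) (M : ℕ)
    (h_bd : BoundedAtFilter (comap Complex.im atTop)
      (fun z => f z * Periodic.qParam h z ^ M)) :
    MeromorphicAt (Periodic.cuspFunction h f) 0 := by
  have han := cm_analyticAt_cuspFunction_mul hh hf h_hol M h_bd
  have hmero : MeromorphicAt
      (fun q => Periodic.cuspFunction h (fun z => f z * Periodic.qParam h z ^ M) q *
        (q ^ M)⁻¹) 0 :=
    han.meromorphicAt.mul ((MeromorphicAt.id 0).pow M).inv
  refine hmero.congr ?_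
  filter_upwards [self_mem_nhdsWithin] with q hq
  have hq0 : q ≠ 0 := hq
  rw [cm_cuspFunction_mul_qParam_pow hh f M hq0]
  field_simp

open scoped Manifold MatrixGroups in
/-- A function on `ℍ` invariant under `T ^ N` gives an `N`-periodic function on `ℂ`. -/
theorem cm_periodic_comp_ofComplex (N : ℕ) (F : ℍ → ℂ)
    (hper : ∀ z : ℍ, F (ModularGroup.T ^ N • z) = F z) :
    Periodic (F ∘ ofComplex) (N : ℝ) := by
  intro w
  by_cases hw : 0 < w.im
  · have hw' : 0 < (w + (N : ℝ)).im := by simpa using hw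
    simp only [comp_apply, ofComplex_apply_of_im_pos hw', ofComplex_apply_of_im_pos hw]
    rw [← hper ⟨w, hw⟩]
    congr 1
    apply UpperHalfPlane.ext
    have := ModularGroup.coe_T_zpow_smul_eq (z := ⟨w, hw⟩) (n := (N : ℤ))
    rw [zpow_natCast] at this
    rw [this]
    simp
  · have hw0 : w.im ≤ 0 := not_lt.mp hw
    have hw' : (w + (N : ℝ)).im ≤ 0 := by simpa using hw0
    simp only [comp_apply]
    rw [ofComplex_apply_eq_of_im_nonpos hw' hw0]

open scoped Manifold in
/-- A holomorphic function on `ℍ` is differentiable near `i∞` when viewed on `ℂ`. -/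
theorem cm_eventually_differentiableAt (F : ℍ → ℂ) (hF : MDiff F) :
    ∀ᶠ z in comap Complex.im atTop, DifferentiableAt ℂ (F ∘ ofComplex) z := by
  have h1 : ∀ᶠ z in comap Complex.im atTop, 0 < z.im :=
    (tendsto_comap.eventually (eventually_gt_atTop (0 : ℝ)))
  filter_upwards [h1] with z hz
  exact mdifferentiableAt_iff.mp (hF ⟨z, hz⟩)

open scoped Manifold MatrixGroups in
/-- Boundedness of `F · 𝕢 ^ (M N)` near `i∞` from an exponential growth bound. -/
theorem cm_bounded_of_growth (N : ℕ) [NeZero N] (F : ℍ → ℂ)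
    (M : ℕ) (C Y : ℝ) (hgrow : ∀ z : ℍ, Y ≤ z.im → ‖F z‖ ≤ C * Real.exp (2 * π * M * z.im)) :
    BoundedAtFilter (comap Complex.im atTop)
      (fun z => (F ∘ ofComplex) z * Periodic.qParam (N : ℝ) z ^ (M * N)) := by
  have hN : (0 : ℝ) < N := by exact_mod_cast Nat.pos_of_ne_zero (NeZero.ne N)
  have h1 : ∀ᶠ z in comap Complex.im atTop, max Y 1 ≤ z.im :=
    (tendsto_comap.eventually (eventually_ge_atTop (max Y 1)))
  rw [BoundedAtFilter, Asymptotics.isBigO_iff]
  refine ⟨C, ?_⟩
  filter_upwards [h1] with z hz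
  have hzpos : 0 < z.im := lt_of_lt_of_le one_pos (le_trans (le_max_right _ _) hz)
  have hzY : Y ≤ z.im := le_trans (le_max_left _ _) hz
  have hb := hgrow ⟨z, hzpos⟩ hzY
  have him : (⟨z, hzpos⟩ : ℍ).im = z.im := rfl
  rw [him] at hb
  simp only [comp_apply, ofComplex_apply_of_im_pos hzpos, norm_mul, norm_pow,
    Periodic.norm_qParam, Pi.one_apply, norm_one, mul_one]
  rw [← Real.exp_nat_mul]
  have hexp : Real.exp (2 * π * M * z.im) *
      Real.exp (((M * N : ℕ) : ℝ) * (-2 * π * z.im / N)) = 1 := by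
    rw [← Real.exp_add]
    have : 2 * π * M * z.im + ((M * N : ℕ) : ℝ) * (-2 * π * z.im / N) = 0 := by
      push_cast
      field_simp
      ring
    rw [this, Real.exp_zero]
  calc ‖F ⟨z, hzpos⟩‖ * Real.exp (((M * N : ℕ) : ℝ) * (-2 * π * z.im / N))
      ≤ C * Real.exp (2 * π * M * z.im) *
          Real.exp (((M * N : ℕ) : ℝ) * (-2 * π * z.im / N)) :=
        mul_le_mul_of_nonneg_right hb (Real.exp_pos _).le
    _ = C := by rw [mul_assoc, hexp, mul_one]

open scoped Manifold MatrixGroups in
/-- **Meromorphy at the cusp.** If `F : ℍ → ℂ` is holomorphic, invariant under `z ↦ z + N` and of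
at most exponential growth `‖F z‖ ≤ C e^{2π M Im z}` for `Im z ≥ Y`, then its cusp function in the
variable `t = e^{2πiz/N}` is meromorphic at `0`; more precisely `t^{MN}` times it is analytic. -/
theorem cm_meromorphicAt_cuspFunction_of_growth (N : ℕ) [NeZero N] (F : ℍ → ℂ) (hF : MDiff F)
    (hper : ∀ z : ℍ, F (ModularGroup.T ^ N • z) = F z)
    (M : ℕ) (C Y : ℝ) (hgrow : ∀ z : ℍ, Y ≤ z.im → ‖F z‖ ≤ C * Real.exp (2 * π * M * z.im)) :
    MeromorphicAt (Periodic.cuspFunction (N : ℝ) (F ∘ ofComplex)) 0 := by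
  have hN : (0 : ℝ) < N := by exact_mod_cast Nat.pos_of_ne_zero (NeZero.ne N)
  exact cm_meromorphicAt_cuspFunction hN (cm_periodic_comp_ofComplex N F hper)
    (cm_eventually_differentiableAt F hF) (M * N) (cm_bounded_of_growth N F M C Y hgrow)

open scoped Manifold MatrixGroups in
/-- The cusp function of a holomorphic `T ^ N`-invariant function is differentiable at every
`q ≠ 0` with `‖q‖ < 1`, and equals `F` there: `cuspFunction N (F ∘ ofComplex) (𝕢 N z) = F z`. -/
theorem cm_cuspFunction_qParam (N : ℕ) [NeZero N] (F : ℍ → ℂ)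
    (hper : ∀ z : ℍ, F (ModularGroup.T ^ N • z) = F z) (z : ℍ) :
    Periodic.cuspFunction (N : ℝ) (F ∘ ofComplex) (Periodic.qParam (N : ℝ) (z : ℂ)) = F z := by
  have hN : (N : ℝ) ≠ 0 := by exact_mod_cast (NeZero.ne N)
  rw [Periodic.eq_cuspFunction hN (cm_periodic_comp_ofComplex N F hper)]
  simp

end Fermat.Agent.H82
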