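/-
P-GENUS (S24), support for GEN-15 (Mathlib only + H82.CuspMero): local analysis at the cusp in the
variable `t = e^{2πiz/N}`: orders from two-sided bounds, the identity theorem, rotation `t ↦ ζ t`.
-/
import Fermat.Agent.H82.CuspMero
import Fermat.Agent.H61.GenAn2

set_option autoImplicit false

namespace Fermat.Agent.H82

open Function Complex Filter UpperHalfPlane
open scoped Topology Real Manifold MatrixGroups

/-- A meromorphic function `f` at `0` with `c₁ ≤ ‖f t‖ ‖t‖ ^ N ≤ c₂` near `0` (`c₁ > 0`) has order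
exactly `-N`. -/
theorem cl_order_eq_neg_of_bounds {f : ℂ → ℂ} (hf : MeromorphicAt f 0) (N : ℕ) (c₁ c₂ : ℝ)
    (hc₁ : 0 < c₁)
    (h : ∀ᶠ t in 𝓝[≠] (0 : ℂ), c₁ ≤ ‖f t‖ * ‖t‖ ^ N ∧ ‖f t‖ * ‖t‖ ^ N ≤ c₂) :
    meromorphicOrderAt f 0 = ((-(N : ℤ) : ℤ) : WithTop ℤ) := by
  set g : ℂ → ℂ := fun t => t ^ N * f t with hg
  have hidN : MeromorphicAt (fun t : ℂ => t ^ N) 0 := (MeromorphicAt.id (0 : ℂ)).pow N
  have hgm : MeromorphicAt g 0 := hidN.mul hf
  have hnorm : ∀ t, ‖g t‖ = ‖f t‖ * ‖t‖ ^ N := by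
    intro t
    simp only [hg, norm_mul, norm_pow]
    ring
  have hg0 : meromorphicOrderAt g 0 = 0 := by
    rcases lt_trichotomy (meromorphicOrderAt g 0) 0 with hlt | heq | hgt
    · exfalso
      have ht := tendsto_cobounded_of_meromorphicOrderAt_neg hlt
      rw [← tendsto_norm_atTop_iff_cobounded] at ht
      have hev := ht.eventually (eventually_gt_atTop c₂)
      obtain ⟨t, ht1, ht2⟩ := (hev.and h).exists
      rw [hnorm] at ht1
      linarith [ht2.2]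
    · exact heq
    · exfalso
      have ht := tendsto_zero_of_meromorphicOrderAt_pos hgt
      have ht' : Tendsto (fun t => ‖g t‖) (𝓝[≠] (0 : ℂ)) (𝓝 0) := by
        simpa using ht.norm
      have hev := ht'.eventually (gt_mem_nhds hc₁)
      obtain ⟨t, ht1, ht2⟩ := (hev.and h).exists
      rw [hnorm] at ht1
      linarith [ht2.1]
  have hmul : meromorphicOrderAt g 0 =
      meromorphicOrderAt (fun t : ℂ => t ^ N) 0 + meromorphicOrderAt f 0 :=
    meromorphicOrderAt_mul hidN hf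
  have hpow : meromorphicOrderAt (fun t : ℂ => t ^ N) 0 = ((N : ℤ) : WithTop ℤ) := by
    have h1 := meromorphicOrderAt_pow (MeromorphicAt.id (0 : ℂ)) (n := N)
    have h2 : meromorphicOrderAt (id : ℂ → ℂ) 0 = 1 := meromorphicOrderAt_id
    have e : (fun t : ℂ => t ^ N) = (id : ℂ → ℂ) ^ N := by
      funext t; simp
    rw [e, h1, h2]
    simp
  rw [hg0, hpow] at hmul
  -- `0 = N + ord f`
  cases hord : meromorphicOrderAt f 0 with
  | top => rw [hord] at hmul; simp at hmul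
  | coe n =>
    rw [hord] at hmul
    have : (0 : ℤ) = (N : ℤ) + n := by exact_mod_cast hmul
    have hn : n = -(N : ℤ) := by linarith
    rw [hn]

/-- Identity theorem on `ℍ`: two holomorphic functions that agree for `Im z ≥ Y` are equal. -/
theorem cl_identity {F₁ F₂ : ℍ → ℂ} (h₁ : MDiff F₁) (h₂ : MDiff F₂) (Y : ℝ)
    (h : ∀ z : ℍ, Y ≤ z.im → F₁ z = F₂ z) : F₁ = F₂ := by
  have hpre : IsPreconnected {z : ℂ | 0 < z.im} :=
    (convex_halfSpace_im_gt 0).isPreconnected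
  have han : ∀ {F : ℍ → ℂ}, MDiff F → AnalyticOnNhd ℂ (F ∘ ofComplex) {z : ℂ | 0 < z.im} := by
    intro F hF z hz
    rw [mdifferentiable_iff] at hF
    exact hF.analyticAt (isOpen_upperHalfPlaneSet.mem_nhds hz)
  set y₀ : ℝ := max Y 1 + 1 with hy₀
  have hy₀pos : 0 < y₀ := by
    have : (1 : ℝ) ≤ max Y 1 := le_max_right _ _
    linarith
  have hy₀Y : Y < y₀ := by
    have : Y ≤ max Y 1 := le_max_left _ _
    linarith
  let z₀ : ℂ := ⟨0, y₀⟩
  have hz₀ : z₀ ∈ {z : ℂ | 0 < z.im} := hy₀pos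
  have hopen : IsOpen {z : ℂ | max Y 0 < z.im} :=
    isOpen_lt continuous_const Complex.continuous_im
  have hmem : z₀ ∈ {z : ℂ | max Y 0 < z.im} := by
    show max Y 0 < y₀
    exact max_lt hy₀Y hy₀pos
  have hev : (F₁ ∘ ofComplex) =ᶠ[𝓝 z₀] (F₂ ∘ ofComplex) := by
    filter_upwards [hopen.mem_nhds hmem] with z hz
    have hzpos : 0 < z.im := lt_of_le_of_lt (le_max_right _ _) hz
    have hzY : Y ≤ z.im := le_of_lt (lt_of_le_of_lt (le_max_left _ _) hz)
    simp only [comp_apply, ofComplex_apply_of_im_pos hzpos]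
    exact h ⟨z, hzpos⟩ hzY
  have key := (han h₁).eqOn_of_preconnected_of_eventuallyEq (han h₂) hpre hz₀ hev
  funext z
  have := key (show (z : ℂ) ∈ {z : ℂ | 0 < z.im} from z.im_pos)
  simpa [Function.comp_apply, ofComplex_apply] using this

/-- Identity theorem at the cusp: if the cusp functions agree on a punctured neighbourhood of
`0`, the functions are equal. -/
theorem cl_eq_of_cuspFunction_eventuallyEq (N : ℕ) [NeZero N] {F₁ F₂ : ℍ → ℂ}
    (h₁ : MDiff F₁) (h₂ : MDiff F₂)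
    (p₁ : ∀ z : ℍ, F₁ (ModularGroup.T ^ N • z) = F₁ z)
    (p₂ : ∀ z : ℍ, F₂ (ModularGroup.T ^ N • z) = F₂ z)
    (h : Periodic.cuspFunction (N : ℝ) (F₁ ∘ ofComplex) =ᶠ[𝓝[≠] (0 : ℂ)]
      Periodic.cuspFunction (N : ℝ) (F₂ ∘ ofComplex)) : F₁ = F₂ := by
  have hN : (0 : ℝ) < N := by exact_mod_cast Nat.pos_of_ne_zero (NeZero.ne N)
  have ht := Periodic.qParam_tendsto hN
  have hev := ht.eventually h
  rw [Filter.eventually_comap] at hev
  obtain ⟨Y, hY⟩ := eventually_atTop.mp hev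
  refine cl_identity h₁ h₂ Y (fun z hz => ?_)
  have := hY z.im hz (z : ℂ) rfl
  rwa [cm_cuspFunction_qParam N F₁ p₁ z, cm_cuspFunction_qParam N F₂ p₂ z] at this

/-- The root of unity `ζ_N = e^{2πi/N}`. -/
noncomputable def clZeta (N : ℕ) : ℂ := Complex.exp (2 * π * Complex.I / N)

lemma clZeta_ne_zero (N : ℕ) : clZeta N ≠ 0 := Complex.exp_ne_zero _

lemma clZeta_isPrimitiveRoot (N : ℕ) [NeZero N] : IsPrimitiveRoot (clZeta N) N :=
  Complex.isPrimitiveRoot_exp N (NeZero.ne N)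

/-- `𝕢_N (z + k) = ζ_N ^ k * 𝕢_N z`. -/
lemma cl_qParam_add_int (N : ℕ) [NeZero N] (z : ℂ) (k : ℤ) :
    Periodic.qParam (N : ℝ) (z + k) = clZeta N ^ k * Periodic.qParam (N : ℝ) z := by
  have hN : (N : ℂ) ≠ 0 := by exact_mod_cast (NeZero.ne N)
  simp only [Periodic.qParam, clZeta]
  rw [← Complex.exp_int_mul, ← Complex.exp_add]
  congr 1
  push_cast
  field_simp
  ring

/-- Rotation: the cusp function of `z ↦ F (T ^ k • z)` is `t ↦ cusp F (ζ ^ k t)`. -/
theorem cl_cuspFunction_comp_T_zpow (N : ℕ) [NeZero N] (F : ℍ → ℂ)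
    (hper : ∀ z : ℍ, F (ModularGroup.T ^ N • z) = F z) (k : ℤ) :
    ∀ᶠ t in 𝓝[≠] (0 : ℂ),
      Periodic.cuspFunction (N : ℝ) ((fun z : ℍ => F (ModularGroup.T ^ k • z)) ∘ ofComplex) t =
        Periodic.cuspFunction (N : ℝ) (F ∘ ofComplex) (clZeta N ^ k * t) := by
  have hN : (0 : ℝ) < N := by exact_mod_cast Nat.pos_of_ne_zero (NeZero.ne N)
  have h1 : ∀ᶠ t in 𝓝[≠] (0 : ℂ), 0 < (Periodic.invQParam (N : ℝ) t).im :=
    (Periodic.invQParam_tendsto hN).eventually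
      (tendsto_comap.eventually (eventually_gt_atTop (0 : ℝ)))
  filter_upwards [h1, self_mem_nhdsWithin] with t ht ht0
  have ht0' : t ≠ 0 := ht0
  set z : ℂ := Periodic.invQParam (N : ℝ) t with hz
  have hq : Periodic.qParam (N : ℝ) z = t := Periodic.qParam_right_inv hN.ne' ht0'
  rw [Periodic.cuspFunction_eq_of_nonzero _ _ ht0', ← hz]
  have e1 : clZeta N ^ k * t = Periodic.qParam (N : ℝ) (z + k) := by
    rw [cl_qParam_add_int, hq]
  rw [e1, Periodic.eq_cuspFunction hN.ne' (cm_periodic_comp_ofComplex N F hper)]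
  simp only [comp_apply]
  have hzk : 0 < (z + (k : ℂ)).im := by simpa using ht
  rw [ofComplex_apply_of_im_pos ht, ofComplex_apply_of_im_pos hzk]
  congr 1
  apply UpperHalfPlane.ext
  rw [ModularGroup.coe_T_zpow_smul_eq]

/-- The order at the cusp is invariant under `z ↦ T ^ k • z`. -/
theorem cl_order_comp_T_zpow (N : ℕ) [NeZero N] (F : ℍ → ℂ)
    (hper : ∀ z : ℍ, F (ModularGroup.T ^ N • z) = F z) (k : ℤ) :
    meromorphicOrderAt
      (Periodic.cuspFunction (N : ℝ) ((fun z : ℍ => F (ModularGroup.T ^ k • z)) ∘ ofComplex)) 0 =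
    meromorphicOrderAt (Periodic.cuspFunction (N : ℝ) (F ∘ ofComplex)) 0 := by
  rw [meromorphicOrderAt_congr (cl_cuspFunction_comp_T_zpow N F hper k)]
  have hg : AnalyticAt ℂ (fun t : ℂ => clZeta N ^ k * t) 0 := by fun_prop
  have hg' : deriv (fun t : ℂ => clZeta N ^ k * t) 0 ≠ 0 := by
    have : deriv (fun t : ℂ => clZeta N ^ k * t) 0 = clZeta N ^ k := by
      simp
    rw [this]
    exact zpow_ne_zero _ (clZeta_ne_zero N)
  have := meromorphicOrderAt_comp_of_deriv_ne_zero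
    (f := Periodic.cuspFunction (N : ℝ) (F ∘ ofComplex)) hg hg'
  simp only [mul_zero] at this
  exact this

/-- If `F` is invariant under `z ↦ z + k` and its cusp function has order `n` at `0`, then
`N ∣ k n`. -/
theorem cl_dvd_of_invariant (N : ℕ) [NeZero N] (F : ℍ → ℂ)
    (hper : ∀ z : ℍ, F (ModularGroup.T ^ N • z) = F z) (k : ℕ)
    (hk : ∀ z : ℍ, F (ModularGroup.T ^ k • z) = F z) (n : ℤ)
    (hmero : MeromorphicAt (Periodic.cuspFunction (N : ℝ) (F ∘ ofComplex)) 0)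
    (hn : meromorphicOrderAt (Periodic.cuspFunction (N : ℝ) (F ∘ ofComplex)) 0 = n) :
    (N : ℤ) ∣ (k : ℤ) * n := by
  have hg : AnalyticAt ℂ (fun t : ℂ => clZeta N ^ (k : ℤ) * t) 0 := by fun_prop
  have hd : deriv (fun t : ℂ => clZeta N ^ (k : ℤ) * t) 0 = clZeta N ^ (k : ℤ) := by
    simp
  have hg' : deriv (fun t : ℂ => clZeta N ^ (k : ℤ) * t) 0 ≠ 0 := by
    rw [hd]
    exact zpow_ne_zero _ (clZeta_ne_zero N)
  have hFk : (fun z : ℍ => F (ModularGroup.T ^ (k : ℤ) • z)) = F := by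
    funext z
    rw [zpow_natCast]
    exact hk z
  have hinv : ∀ᶠ t in 𝓝[≠] (0 : ℂ),
      Periodic.cuspFunction (N : ℝ) (F ∘ ofComplex) ((fun t : ℂ => clZeta N ^ (k : ℤ) * t) t) =
        Periodic.cuspFunction (N : ℝ) (F ∘ ofComplex) t := by
    have := cl_cuspFunction_comp_T_zpow N F hper (k : ℤ)
    rw [hFk] at this
    filter_upwards [this] with t ht
    exact ht.symm
  have key := Fermat.Agent.H61.deriv_zpow_eq_one_of_comp_eq (n := n) hmero hn hg (by simp) hg'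
    hinv
  rw [hd, ← zpow_mul] at key
  exact (clZeta_isPrimitiveRoot N).zpow_eq_one_iff_dvd _ |>.mp key

/-- Integer version of: `N ∣ k n → N / gcd(N, k) ∣ n`. -/
lemma cl_div_gcd_dvd (N k : ℕ) (hN : 0 < N) (n : ℤ) (h : (N : ℤ) ∣ (k : ℤ) * n) :
    ∃ m : ℤ, n = ((N / Nat.gcd N k : ℕ) : ℤ) * m := by
  have hd : 0 < Nat.gcd N k := Nat.gcd_pos_of_pos_left k hN
  obtain ⟨N', hN'⟩ := Nat.gcd_dvd_left N k
  obtain ⟨k', hk'⟩ := Nat.gcd_dvd_right N k
  have e1 : N / Nat.gcd N k = N' := Nat.div_eq_of_eq_mul_right hd hN'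
  have hcop : Nat.Coprime N' k' := by
    have := Nat.coprime_div_gcd_div_gcd hd (m := N) (n := k)
    rwa [e1, Nat.div_eq_of_eq_mul_right hd hk'] at this
  rw [e1]
  have hdz : ((Nat.gcd N k : ℕ) : ℤ) ≠ 0 := by exact_mod_cast hd.ne'
  have h2 : ((Nat.gcd N k : ℕ) : ℤ) * (N' : ℤ) ∣ ((Nat.gcd N k : ℕ) : ℤ) * ((k' : ℤ) * n) := by
    have eN : (N : ℤ) = ((Nat.gcd N k : ℕ) : ℤ) * (N' : ℤ) := by exact_mod_cast hN'
    have ek : (k : ℤ) = ((Nat.gcd N k : ℕ) : ℤ) * (k' : ℤ) := by exact_mod_cast hk'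
    rw [← eN, ← mul_assoc, ← ek]
    exact h
  have h3 : (N' : ℤ) ∣ (k' : ℤ) * n := (mul_dvd_mul_iff_left hdz).mp h2
  have hcopZ : IsCoprime (N' : ℤ) (k' : ℤ) := Nat.isCoprime_iff_coprime.mpr hcop
  obtain ⟨m, hm⟩ := hcopZ.dvd_of_dvd_mul_left h3
  exact ⟨m, hm⟩

end Fermat.Agent.H82
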