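/-
P-GENUS (S24), GEN-15: the analytic datum at the cusp `∞`,
`Nonempty (AnalyticDatum N (jBar N)⁻¹ ModularGroup.T N)`.
-/
import Fermat.Agent.H82.CuspGrowth
import Fermat.Agent.H82.CuspLocal
import Fermat.Agent.H61.GenAn5

set_option autoImplicit false

noncomputable section

open UpperHalfPlane Filter Topology Function
open scoped MatrixGroups Manifold Real

namespace Fermat.Agent.H82

open Fermat.Agent.H23 Fermat.Agent.H61

/-- Holomorphic functions on `ℍ`, invariant under `z ↦ z + N`, of at most exponential growth at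
`i∞`. -/
def IsCuspFn (N : ℕ) (F : ℍ → ℂ) : Prop :=
  MDiff F ∧ (∀ z : ℍ, F (ModularGroup.T ^ N • z) = F z) ∧
    ∃ (M : ℕ) (C Y : ℝ), ∀ z : ℍ, Y ≤ z.im → ‖F z‖ ≤ C * Real.exp (2 * π * M * z.im)

/-- The cusp function in the variable `t = e^{2πiz/N}`. -/
def cuspFn (N : ℕ) (F : ℍ → ℂ) : ℂ → ℂ := Periodic.cuspFunction (N : ℝ) (F ∘ ofComplex)

lemma cuspFn_def (N : ℕ) (F : ℍ → ℂ) :
    cuspFn N F = Periodic.cuspFunction (N : ℝ) (F ∘ ofComplex) := rfl

lemma cuspFn_apply (N : ℕ) (F : ℍ → ℂ) {t : ℂ} (ht : t ≠ 0) :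
    cuspFn N F t = F (ofComplex (Periodic.invQParam (N : ℝ) t)) := by
  rw [cuspFn_def, Periodic.cuspFunction_eq_of_nonzero _ _ ht]
  rfl

lemma IsCuspFn.meromorphicAt {N : ℕ} [NeZero N] {F : ℍ → ℂ} (h : IsCuspFn N F) :
    MeromorphicAt (cuspFn N F) 0 := by
  obtain ⟨h1, h2, M, C, Y, h3⟩ := h
  exact cm_meromorphicAt_cuspFunction_of_growth N F h1 h2 M C Y h3

section germ

variable (G : MerGermField (0 : ℂ))

lemma cd_germ_congr {f g : ℂ → ℂ} (hf : MeromorphicAt f 0) (hg : MeromorphicAt g 0)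
    (h : ∀ t : ℂ, t ≠ 0 → f t = g t) : G.germ f = G.germ g :=
  (G.germ_eq_iff f g hf hg).mpr (eventually_nhdsWithin_of_forall h)

lemma cd_germ_zero : G.germ (fun _ => (0 : ℂ)) = 0 := by
  have h0 : MeromorphicAt (fun _ : ℂ => (0 : ℂ)) (0 : ℂ) := MeromorphicAt.const 0 _
  have h := G.germ_add _ _ h0 h0
  have e : ((fun _ : ℂ => (0 : ℂ)) + fun _ : ℂ => (0 : ℂ)) = fun _ => (0 : ℂ) := by
    funext z; simp
  rw [e] at h
  exact left_eq_add.mp h

variable (N : ℕ) [NeZero N]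

/-- The germ homomorphism at the cusp attached to a ring of cuspidal-meromorphic functions. -/
def cuspGermHom {R : Type*} [CommRing R] (Θ' : R →+* (ℍ → ℂ)) (hcm : ∀ r, IsCuspFn N (Θ' r)) :
    R →+* G.M where
  toFun r := G.germ (cuspFn N (Θ' r))
  map_one' := by
    rw [← G.germ_one]
    refine cd_germ_congr G (hcm 1).meromorphicAt (MeromorphicAt.const 1 _) (fun t ht => ?_)
    rw [cuspFn_apply N _ ht, map_one]
    rfl
  map_mul' r s := by
    rw [← G.germ_mul _ _ (hcm r).meromorphicAt (hcm s).meromorphicAt]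
    refine cd_germ_congr G (hcm (r * s)).meromorphicAt
      ((hcm r).meromorphicAt.mul (hcm s).meromorphicAt) (fun t ht => ?_)
    rw [Pi.mul_apply, cuspFn_apply N _ ht, cuspFn_apply N _ ht, cuspFn_apply N _ ht, map_mul]
    rfl
  map_zero' := by
    rw [← cd_germ_zero G]
    refine cd_germ_congr G (hcm 0).meromorphicAt (MeromorphicAt.const 0 _) (fun t ht => ?_)
    rw [cuspFn_apply N _ ht, map_zero]
    rfl
  map_add' r s := by
    rw [← G.germ_add _ _ (hcm r).meromorphicAt (hcm s).meromorphicAt]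
    refine cd_germ_congr G (hcm (r + s)).meromorphicAt
      ((hcm r).meromorphicAt.add (hcm s).meromorphicAt) (fun t ht => ?_)
    rw [Pi.add_apply, cuspFn_apply N _ ht, cuspFn_apply N _ ht, cuspFn_apply N _ ht, map_add]
    rfl

lemma cuspGermHom_apply {R : Type*} [CommRing R] (Θ' : R →+* (ℍ → ℂ))
    (hcm : ∀ r, IsCuspFn N (Θ' r)) (r : R) :
    cuspGermHom G N Θ' hcm r = G.germ (cuspFn N (Θ' r)) := rfl

lemma cuspGermHom_eq_iff {R : Type*} [CommRing R] (Θ' : R →+* (ℍ → ℂ))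
    (hcm : ∀ r, IsCuspFn N (Θ' r)) (Θ'' : R →+* (ℍ → ℂ)) (hcm' : ∀ r, IsCuspFn N (Θ'' r))
    (r s : R) :
    cuspGermHom G N Θ' hcm r = cuspGermHom G N Θ'' hcm' s ↔ Θ' r = Θ'' s := by
  constructor
  · intro h
    rw [cuspGermHom_apply, cuspGermHom_apply, G.germ_eq_iff _ _ (hcm r).meromorphicAt
      (hcm' s).meromorphicAt] at h
    exact cl_eq_of_cuspFunction_eventuallyEq N (hcm r).1 (hcm' s).1 (hcm r).2.1 (hcm' s).2.1 h
  · intro h
    rw [cuspGermHom_apply, cuspGermHom_apply, h]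

lemma cuspGermHom_injective {R : Type*} [CommRing R] (Θ' : R →+* (ℍ → ℂ))
    (hcm : ∀ r, IsCuspFn N (Θ' r)) (hinj : Function.Injective Θ') :
    Function.Injective (cuspGermHom G N Θ' hcm) := by
  intro r s h
  exact hinj ((cuspGermHom_eq_iff G N Θ' hcm Θ' hcm r s).mp h)

lemma val_cuspGermHom {R : Type*} [CommRing R] (Θ' : R →+* (ℍ → ℂ))
    (hcm : ∀ r, IsCuspFn N (Θ' r)) (r : R) :
    G.val (cuspGermHom G N Θ' hcm r) = meromorphicOrderAt (cuspFn N (Θ' r)) 0 := by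
  rw [cuspGermHom_apply]
  exact G.val_germ _ (hcm r).meromorphicAt

end germ

section jfun

variable (N : ℕ) [NeZero N]

omit [NeZero N] in
lemma cd_isCuspFn_jfun (hjmd : MDiff jfun) : IsCuspFn N jfun := by
  refine ⟨hjmd, fun z => sep_jfun_smul _ z, ?_⟩
  obtain ⟨Y, hY⟩ := sep_exists_bound_jfun
  refine ⟨1, 7, Y, fun z hz => ?_⟩
  have := (hY z hz).2
  simpa using this

/-- The cusp function of `j` in the variable `t = q^{1/N}` has a pole of order exactly `N`. -/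
theorem cd_order_jfun (hjmd : MDiff jfun) :
    meromorphicOrderAt (cuspFn N jfun) 0 = ((-(N : ℤ) : ℤ) : WithTop ℤ) := by
  have hN : (0 : ℝ) < N := by exact_mod_cast Nat.pos_of_ne_zero (NeZero.ne N)
  obtain ⟨Y, hY⟩ := sep_exists_bound_jfun
  refine cl_order_eq_neg_of_bounds (cd_isCuspFn_jfun N hjmd).meromorphicAt N (1 / 12) 7
    (by norm_num) ?_
  have h1 : ∀ᶠ t in 𝓝[≠] (0 : ℂ), max Y 1 ≤ (Periodic.invQParam (N : ℝ) t).im :=
    (Periodic.invQParam_tendsto hN).eventually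
      (tendsto_comap.eventually (eventually_ge_atTop (max Y 1)))
  filter_upwards [h1, self_mem_nhdsWithin] with t ht ht0
  have ht0' : t ≠ 0 := ht0
  set z : ℂ := Periodic.invQParam (N : ℝ) t with hz
  have hzpos : 0 < z.im := lt_of_lt_of_le one_pos (le_trans (le_max_right _ _) ht)
  have hzY : Y ≤ z.im := le_trans (le_max_left _ _) ht
  have hq : Periodic.qParam (N : ℝ) z = t := Periodic.qParam_right_inv hN.ne' ht0'
  have hnt : ‖t‖ ^ N = Real.exp (-2 * π * z.im) := by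
    rw [← hq, Periodic.norm_qParam, ← Real.exp_nat_mul]
    congr 1
    field_simp
  rw [cuspFn_apply N _ ht0', ← hz, ofComplex_apply_of_im_pos hzpos, hnt]
  obtain ⟨hlow, hupp⟩ := hY ⟨z, hzpos⟩ hzY
  have him : (⟨z, hzpos⟩ : ℍ).im = z.im := rfl
  rw [him] at hlow hupp
  have hexp : Real.exp (2 * π * z.im) * Real.exp (-2 * π * z.im) = 1 := by
    rw [← Real.exp_add]; simp
  have hp := Real.exp_pos (-2 * π * z.im)
  constructor
  · calc (1 / 12 : ℝ) = 1 / 12 * (Real.exp (2 * π * z.im) * Real.exp (-2 * π * z.im)) := by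
          rw [hexp, mul_one]
      _ = (1 / 12 * Real.exp (2 * π * z.im)) * Real.exp (-2 * π * z.im) := by ring
      _ ≤ ‖jfun ⟨z, hzpos⟩‖ * Real.exp (-2 * π * z.im) :=
          mul_le_mul_of_nonneg_right hlow hp.le
  · calc ‖jfun ⟨z, hzpos⟩‖ * Real.exp (-2 * π * z.im)
        ≤ (7 * Real.exp (2 * π * z.im)) * Real.exp (-2 * π * z.im) :=
          mul_le_mul_of_nonneg_right hupp hp.le
      _ = 7 * (Real.exp (2 * π * z.im) * Real.exp (-2 * π * z.im)) := by ring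
      _ = 7 := by rw [hexp, mul_one]

end jfun

section main

variable {N : ℕ} [NeZero N]

local notation "Kbar" => AlgebraicClosure ℚ
set_option quotPrecheck false in
local notation "FN" => ↥(ModularCurve.modularFunctionFieldBar N)

/-- **GEN-15**, engine form: the analytic datum at the cusp from the core data. -/
theorem analyticDatum_cusp
    (ι : Kbar →+* ℂ) (Θ : ↥(Rsub N) →+* (ℍ → ℂ))
    (hΘinj : Function.Injective Θ) (hΘmd : ∀ r, MDiff (Θ r))
    (hΘc : ∀ c : Kbar, Θ (algebraMap Kbar ↥(Rsub N) c) = fun _ => ι c)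
    (hΘJ : ∀ (d : ℕ) (_ : NeZero d) (hd : d ∣ N) (h : jBarD N d hd ∈ Rsub N),
      Θ ⟨jBarD N d hd, h⟩ = fun z => jfun (scaleH d z))
    (hfrac : ∀ f : FN, ∃ r s : ↥(Rsub N), s ≠ 0 ∧ f * (s : FN) = r)
    (G : MerGermField (0 : ℂ)) :
    Nonempty (AnalyticDatum N (jBar N)⁻¹ ModularGroup.T N) := by
  classical
  have hN0 : 0 < N := Nat.pos_of_ne_zero (NeZero.ne N)
  have hFR : IsFractionRing ↥(Rsub N) FN := isFractionRing_Rsub hfrac
  have hinvΘ := cg_theta_invariant N ι Θ hΘc hΘJ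
  have hsep1 := (separation N).1
  -- `j` is holomorphic
  have hjmd : MDiff jfun := by
    have h1 := hΘmd ⟨jBarD N 1 (one_dvd N), jBarD_mem 1 (one_dvd N)⟩
    rw [hΘJ 1 inferInstance (one_dvd N)] at h1
    have e : (fun z => jfun (scaleH 1 z)) = jfun := by
      funext z; rw [scaleH_one]
    rwa [e] at h1
  -- the pulled-back homs
  let Θγ : SL(2, ℤ) → (↥(Rsub N) →+* (ℍ → ℂ)) := fun γ => (pullHom γ).comp Θ
  have hΘγ : ∀ γ r z, Θγ γ r z = Θ r (γ⁻¹ • z) := fun γ r z => rfl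
  have hΘγmd : ∀ γ r, MDiff (Θγ γ r) := fun γ r => mdiff_pullHom γ (hΘmd r)
  have hΘγinj : ∀ γ, Function.Injective (Θγ γ) := fun γ => (pullHom_injective γ).comp hΘinj
  have hΘγper : ∀ γ r (z : ℍ), Θγ γ r (ModularGroup.T ^ N • z) = Θγ γ r z := by
    intro γ r z
    rw [hΘγ, hΘγ]
    exact cg_theta_periodic N ι Θ hΘc hΘJ r γ⁻¹ z
  have hcusp : ∀ γ r, IsCuspFn N (Θγ γ r) := by
    intro γ r
    refine ⟨hΘγmd γ r, hΘγper γ r, ?_⟩
    obtain ⟨M, C, Y, -, h⟩ := cg_theta_growth N ι Θ hΘc hΘJ r γ⁻¹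
    exact ⟨M, C, Y, fun z hz => by rw [hΘγ]; exact h z hz⟩
  let sR : SL(2, ℤ) → (↥(Rsub N) →+* G.M) := fun γ => cuspGermHom G N (Θγ γ) (hcusp γ)
  have hsRinj : ∀ γ, Function.Injective (sR γ) :=
    fun γ => cuspGermHom_injective G N _ _ (hΘγinj γ)
  let σ : SL(2, ℤ) → (FN →+* G.M) := fun γ => IsFractionRing.lift (hsRinj γ)
  have hσR : ∀ γ (r : ↥(Rsub N)), σ γ (algebraMap ↥(Rsub N) FN r) = sR γ r :=
    fun γ r => IsFractionRing.lift_algebraMap (hsRinj γ) r
  have hσinj : ∀ γ, Function.Injective (σ γ) := fun γ => (σ γ).injective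
  -- constants
  have hconst : ∀ γ (c : Kbar), σ γ (algebraMap Kbar FN c) = G.germ (fun _ => ι c) := by
    intro γ c
    rw [IsScalarTower.algebraMap_apply Kbar ↥(Rsub N) FN c, hσR]
    show G.germ (cuspFn N (Θγ γ (algebraMap Kbar ↥(Rsub N) c))) = _
    refine cd_germ_congr G (hcusp γ _).meromorphicAt (MeromorphicAt.const _ _) (fun t ht => ?_)
    rw [cuspFn_apply N _ ht, hΘγ, hΘc]
  -- the element `j`
  let J1 : ↥(Rsub N) := ⟨jBarD N 1 (one_dvd N), jBarD_mem 1 (one_dvd N)⟩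
  have hJ1 : algebraMap ↥(Rsub N) FN J1 = jBar N := by
    rw [jBar_eq_jBarD_one]
    rfl
  have hΘJ1 : ∀ γ, Θγ γ J1 = jfun := by
    intro γ
    funext z
    rw [hΘγ]
    show Θ ⟨jBarD N 1 (one_dvd N), jBarD_mem 1 (one_dvd N)⟩ _ = _
    rw [hΘJ 1 inferInstance (one_dvd N)]
    simp only [scaleH_one, sep_jfun_smul]
  have hσj : ∀ γ, σ γ (jBar N) = G.germ (cuspFn N jfun) := by
    intro γ
    rw [← hJ1, hσR]
    show G.germ (cuspFn N (Θγ γ J1)) = _
    rw [hΘJ1]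
  have hσy : ∀ γ, σ γ (jBar N)⁻¹ = (G.germ (cuspFn N jfun))⁻¹ := by
    intro γ
    rw [map_inv₀, hσj]
  have hvalj : G.val (G.germ (cuspFn N jfun)) = ((-(N : ℤ) : ℤ) : WithTop ℤ) := by
    rw [G.val_germ _ (cd_isCuspFn_jfun N hjmd).meromorphicAt, cd_order_jfun N hjmd]
  have hgj_ne : G.germ (cuspFn N jfun) ≠ 0 := by
    intro h0
    rw [h0, AddValuation.map_zero] at hvalj
    exact WithTop.top_ne_coe hvalj
  have hvaly : G.val (G.germ (cuspFn N jfun))⁻¹ = (((N : ℕ) : ℤ) : WithTop ℤ) := by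
    have h1 : G.val ((G.germ (cuspFn N jfun))⁻¹ * G.germ (cuspFn N jfun)) = 0 := by
      rw [inv_mul_cancel₀ hgj_ne, AddValuation.map_one]
    rw [AddValuation.map_mul, hvalj] at h1
    have hne : G.val (G.germ (cuspFn N jfun))⁻¹ ≠ ⊤ := by
      rw [Ne, AddValuation.top_iff]
      exact inv_ne_zero hgj_ne
    obtain ⟨m, hm⟩ := WithTop.ne_top_iff_exists.mp hne
    rw [← hm] at h1 ⊢
    have h2 : m + (-(N : ℤ)) = 0 := by exact_mod_cast h1
    have h3 : m = (N : ℤ) := by linarith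
    rw [h3]
  -- valuations of elements of `Rsub N`
  have hvalR : ∀ γ (r : ↥(Rsub N)), G.val (sR γ r)
      = meromorphicOrderAt (cuspFn N (Θγ γ r)) 0 :=
    fun γ r => val_cuspGermHom G N _ _ r
  -- fractions
  have hfracσ : ∀ (γ : SL(2, ℤ)) (f : FN) (r s : ↥(Rsub N)), f * (s : FN) = r →
      σ γ f * sR γ s = sR γ r := by
    intro γ f r s h
    rw [← hσR, ← hσR, ← map_mul]
    exact congrArg _ h
  -- `σ_eq_iff`
  have hσ_eq_iff : ∀ γ γ' : SL(2, ℤ),
      σ γ = σ γ' ↔ γ⁻¹ * γ' ∈ CongruenceSubgroup.Gamma0 N := by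
    intro γ γ'
    constructor
    · intro h
      apply hsep1
      intro z
      let JN : ↥(Rsub N) := ⟨jBarD N N dvd_rfl, jBarD_mem N dvd_rfl⟩
      have h1 : sR γ JN = sR γ' JN := by rw [← hσR, ← hσR, h]
      have h2 : Θγ γ JN = Θγ γ' JN := (cuspGermHom_eq_iff G N _ _ _ _ JN JN).mp h1
      have h3 := congrFun h2 (γ' • z)
      rw [hΘγ, hΘγ, hΘJ N inferInstance dvd_rfl] at h3
      simpa [mul_smul] using h3
    · intro h
      apply IsFractionRing.ringHom_ext (A := ↥(Rsub N))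
      intro r
      rw [hσR, hσR]
      apply (cuspGermHom_eq_iff G N _ _ _ _ r r).mpr
      funext z
      rw [hΘγ, hΘγ]
      have e : γ'⁻¹ • z = (γ⁻¹ * γ')⁻¹ • (γ⁻¹ • z) := by
        rw [← mul_smul]; congr 1; group
      rw [e, hinvΘ r _ (inv_mem h)]
  -- `val_g`
  have hval_g_R : ∀ γ (r : ↥(Rsub N)),
      G.val (sR (ModularGroup.T * γ) r) = G.val (sR γ r) := by
    intro γ r
    rw [hvalR, hvalR]
    have e : Θγ (ModularGroup.T * γ) r
        = fun z : ℍ => (Θγ γ r) (ModularGroup.T ^ (-1 : ℤ) • z) := by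
      funext z
      show Θ r ((ModularGroup.T * γ)⁻¹ • z) = Θ r (γ⁻¹ • (ModularGroup.T ^ (-1 : ℤ) • z))
      rw [mul_inv_rev, mul_smul, zpow_neg_one]
    rw [e]
    exact cl_order_comp_T_zpow N (Θγ γ r) (hΘγper γ r) (-1)
  have hs_ne : ∀ γ (s : ↥(Rsub N)), s ≠ 0 → G.val (sR γ s) ≠ ⊤ := by
    intro γ s hs
    rw [Ne, AddValuation.top_iff]
    intro h0
    exact hs (hsRinj γ (h0.trans (map_zero _).symm))
  have hval_g : ∀ γ (f : FN), G.val (σ (ModularGroup.T * γ) f) = G.val (σ γ f) := by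
    intro γ f
    obtain ⟨r, s, hs, h⟩ := hfrac f
    have v1 := congrArg G.val (hfracσ (ModularGroup.T * γ) f r s h)
    have v2 := congrArg G.val (hfracσ γ f r s h)
    rw [AddValuation.map_mul] at v1 v2
    rw [hval_g_R, hval_g_R] at v1
    exact WithTop.add_right_cancel (hs_ne γ s hs) (v1.trans v2.symm)
  -- `val_dvd`
  have hval_dvd : ∀ (γ : SL(2, ℤ)) (k : ℕ),
      γ⁻¹ * ModularGroup.T ^ k * γ ∈ CongruenceSubgroup.Gamma0 N →
      ∀ f : FN, f ≠ 0 → ∃ m : ℤ,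
        G.val (σ γ f) = ((((N / Nat.gcd N k : ℕ) : ℤ) * m : ℤ) : WithTop ℤ) := by
    intro γ k hk f hf
    have hR : ∀ r : ↥(Rsub N), r ≠ 0 → ∃ n m : ℤ,
        G.val (sR γ r) = ((n : ℤ) : WithTop ℤ) ∧ n = ((N / Nat.gcd N k : ℕ) : ℤ) * m := by
      intro r hr
      obtain ⟨n, hn⟩ := WithTop.ne_top_iff_exists.mp (hs_ne γ r hr)
      have hn' : meromorphicOrderAt (cuspFn N (Θγ γ r)) 0 = ((n : ℤ) : WithTop ℤ) := by
        rw [← hvalR]; exact hn.symm
      have hinvk : ∀ z : ℍ, Θγ γ r (ModularGroup.T ^ k • z) = Θγ γ r z := by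
        intro z
        rw [hΘγ, hΘγ]
        have e : γ⁻¹ • (ModularGroup.T ^ k) • z
            = (γ⁻¹ * ModularGroup.T ^ k * γ) • (γ⁻¹ • z) := by
          simp [mul_smul]
        rw [e, hinvΘ r _ hk]
      have hdvd := cl_dvd_of_invariant N (Θγ γ r) (hΘγper γ r) k hinvk n
        (hcusp γ r).meromorphicAt hn'
      obtain ⟨m, hm⟩ := cl_div_gcd_dvd N k hN0 n hdvd
      exact ⟨n, m, hn.symm, hm⟩
    obtain ⟨r, s, hs, h⟩ := hfrac f
    have hr : r ≠ 0 := by
      rintro rfl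
      have hs' : (s : FN) ≠ 0 := fun h0 => hs (Subtype.ext h0)
      exact (mul_ne_zero hf hs') (by rw [h]; rfl)
    obtain ⟨nr, mr, hnr, dr⟩ := hR r hr
    obtain ⟨ns, ms, hns, ds⟩ := hR s hs
    have v := congrArg G.val (hfracσ γ f r s h)
    rw [AddValuation.map_mul, hnr, hns] at v
    have hfne : G.val (σ γ f) ≠ ⊤ := by
      rw [Ne, AddValuation.top_iff]
      intro h0
      exact hf (hσinj γ (h0.trans (map_zero _).symm))
    obtain ⟨m, hm⟩ := WithTop.ne_top_iff_exists.mp hfne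
    rw [← hm] at v ⊢
    have v' : m + ns = nr := by exact_mod_cast v
    refine ⟨mr - ms, ?_⟩
    congr 1
    have : m = nr - ns := by linarith
    rw [this, dr, ds]
    ring
  exact ⟨{
    M := G.M
    val := G.val
    der := G.der
    der_add := G.der_add
    der_mul := G.der_mul
    val_der := G.val_der
    σ := σ
    val_const := by
      intro γ c hc
      rw [hconst, G.val_germ _ (MeromorphicAt.const _ _), meromorphicOrderAt_const]
      have : ι c ≠ 0 := (map_ne_zero ι).mpr hc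
      simp [this]
    der_const := by
      intro γ c
      rw [hconst, G.der_germ _ (MeromorphicAt.const _ _)]
      have : deriv (fun _ : ℂ => ι c) = fun _ => 0 := by
        funext z; simp
      rw [this]
      exact cd_germ_zero G
    σ_const := by
      intro γ γ' c
      rw [hconst, hconst]
    σ_eq_iff := hσ_eq_iff
    σ_y := by
      intro γ γ'
      rw [hσy, hσy]
    val_y := by
      intro γ
      rw [hσy, hvaly]
    val_g := hval_g
    val_dvd := hval_dvd }⟩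

/-- **GEN-15**: the analytic datum at the cusp. -/
theorem analytic_cusp (N : ℕ) [NeZero N] (hG : MerGermStatement) (hC : CoreStatement N) :
    Nonempty (AnalyticDatum N (jBar N)⁻¹ ModularGroup.T N) := by
  obtain ⟨ι, Θ, hΘinj, hΘmd, hΘc, hΘJ, hfrac⟩ := hC
  obtain ⟨G⟩ := hG 0
  exact analyticDatum_cusp ι Θ hΘinj hΘmd hΘc hΘJ hfrac G

end main

end Fermat.Agent.H82

end
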