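import Mathlib
import Fermat.Agent.H19.Defs

/-!
# DIM-TRACE: the trace pairing of two forms on `Γ₀(N)` is a level-one form
-/

set_option autoImplicit false

noncomputable section

namespace Fermat.Agent.H82

open UpperHalfPlane ModularForm CongruenceSubgroup Fermat.Agent.H19
open scoped MatrixGroups Manifold ModularForm

variable {N : ℕ} {k m : ℤ} {φ ψ : ℍ → ℂ}

lemma tr_cosetFun_mk (hφ : ∀ γ ∈ Gamma0 N, φ ∣[k] γ = φ) (g : SL(2, ℤ)) :
    cosetFun N k φ (g : Q N) = φ ∣[k] g⁻¹ := by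
  obtain ⟨h, hh⟩ := QuotientGroup.mk_out_eq_mul (Gamma0 N) g
  unfold cosetFun
  rw [hh, mul_inv_rev, SlashAction.slash_mul, hφ _ (inv_mem h.2)]

lemma tr_cosetFun_slash (hφ : ∀ γ ∈ Gamma0 N, φ ∣[k] γ = φ) (q : Q N) (h : SL(2, ℤ)) :
    (cosetFun N k φ q) ∣[k] h = cosetFun N k φ (h⁻¹ • q) := by
  induction q using QuotientGroup.induction_on with
  | H g =>
    have : h⁻¹ • (g : Q N) = ((h⁻¹ * g : SL(2, ℤ)) : Q N) := rfl
    rw [this, tr_cosetFun_mk hφ, tr_cosetFun_mk hφ, ← SlashAction.slash_mul, mul_inv_rev, inv_inv]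

lemma tr_mem_Gamma0_one (g : SL(2, ℤ)) : g ∈ Gamma0 1 := by
  rw [Gamma0_mem]
  exact Subsingleton.elim _ _

lemma tr_boundedAtFilter_sum {α ι : Type*} {l : Filter α} (s : Finset ι) (f : ι → α → ℂ)
    (h : ∀ i ∈ s, Filter.BoundedAtFilter l (f i)) : Filter.BoundedAtFilter l (∑ i ∈ s, f i) := by
  classical
  induction s using Finset.induction_on with
  | empty => simpa using Filter.const_boundedAtFilter l (0 : ℂ)
  | insert a s ha ih =>
    rw [Finset.sum_insert ha]
    exact (h a (Finset.mem_insert_self a s)).add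
      (ih fun i hi => h i (Finset.mem_insert_of_mem hi))

lemma tr_zeroAtFilter_sum {α ι : Type*} {l : Filter α} (s : Finset ι) (f : ι → α → ℂ)
    (h : ∀ i ∈ s, Filter.ZeroAtFilter l (f i)) : Filter.ZeroAtFilter l (∑ i ∈ s, f i) := by
  classical
  induction s using Finset.induction_on with
  | empty => simpa using Filter.zero_zeroAtFilter l
  | insert a s ha ih =>
    rw [Finset.sum_insert ha]
    exact (h a (Finset.mem_insert_self a s)).add
      (ih fun i hi => h i (Finset.mem_insert_of_mem hi))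

variable [NeZero N]

lemma tr_sum_slash (hφ : ∀ γ ∈ Gamma0 N, φ ∣[k] γ = φ) (hψ : ∀ γ ∈ Gamma0 N, ψ ∣[m] γ = ψ)
    (h : SL(2, ℤ)) :
    (∑ q : Q N, cosetFun N k φ q * cosetFun N m ψ q) ∣[k + m] h =
      ∑ q : Q N, cosetFun N k φ q * cosetFun N m ψ q := by
  rw [SL_slash, SlashAction.sum_slash]
  simp only [← SL_slash, mul_slash_SL2, tr_cosetFun_slash hφ, tr_cosetFun_slash hψ]
  exact Equiv.sum_comp (MulAction.toPerm h⁻¹) fun q => cosetFun N k φ q * cosetFun N m ψ q

theorem isMF_trace (hφ : IsMF N k φ) (hψ : IsMF N m ψ) :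
    IsMF 1 (k + m) (∑ q : Q N, cosetFun N k φ q * cosetFun N m ψ q) where
  holo := by
    refine MDifferentiable.sum fun q _ => ?_
    exact (hφ.holo.slash k _).mul (hψ.holo.slash m _)
  inv γ _ := tr_sum_slash hφ.inv hψ.inv γ
  bdd g := by
    rw [tr_sum_slash hφ.inv hψ.inv g]
    simp only [IsBoundedAtImInfty]
    refine tr_boundedAtFilter_sum _ _ fun q _ => ?_
    exact (hφ.bdd _).mul (hψ.bdd _)

theorem isCF_trace (hφ : IsCF N k φ) (hψ : IsMF N m ψ) :
    IsCF 1 (k + m) (∑ q : Q N, cosetFun N k φ q * cosetFun N m ψ q) where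
  holo := by
    refine MDifferentiable.sum fun q _ => ?_
    exact (hφ.holo.slash k _).mul (hψ.holo.slash m _)
  inv γ _ := tr_sum_slash hφ.inv hψ.inv γ
  zero g := by
    rw [tr_sum_slash hφ.inv hψ.inv g]
    simp only [IsZeroAtImInfty]
    refine tr_zeroAtFilter_sum _ _ fun q _ => ?_
    exact (hφ.zero _).mul_boundedAtFilter (hψ.bdd _)

omit [NeZero N] in
/-- A level-one cusp form in the sense of `IsCF 1 k` as a Mathlib cusp form. -/
def tr_cuspFormOfIsCF (hφ : IsCF 1 k φ) : CuspForm 𝒮ℒ k where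
  toFun := φ
  slash_action_eq' γ hγ := by
    obtain ⟨g, rfl⟩ := hγ
    have := hφ.inv g (tr_mem_Gamma0_one g)
    rwa [SL_slash] at this
  holo' := hφ.holo
  zero_at_cusps' {c} hc := by
    rw [OnePoint.isZeroAt_iff_forall_SL2Z hc]
    intro γ _
    exact hφ.zero γ

omit [NeZero N] in
/-- A Mathlib level-one modular form is a modular form in the sense of `IsMF 1 k`. -/
lemma tr_isMF_one_of_modularForm (r : ModularForm 𝒮ℒ k) : IsMF 1 k ⇑r where
  holo := r.holo'
  inv γ _ := by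
    rw [SL_slash]
    exact r.slash_action_eq' _ ⟨γ, rfl⟩
  bdd g := ModularFormClass.bdd_at_infty_slash r g

omit [NeZero N] in
theorem isCF_one_div_discriminant (hφ : IsCF 1 k φ) :
    ∃ r, IsMF 1 (k - 12) r ∧ ∀ z, φ z = ModularForm.discriminant z * r z := by
  refine ⟨⇑(CuspForm.discriminantEquiv (tr_cuspFormOfIsCF hφ)),
    tr_isMF_one_of_modularForm _, fun z => ?_⟩
  rw [CuspForm.discriminantEquiv_apply]
  have : (tr_cuspFormOfIsCF hφ) z = φ z := rfl
  rw [this, mul_div_cancel₀ _ (ModularForm.discriminant_ne_zero z)]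

end Fermat.Agent.H82
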