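import Mathlib

/-!
# INT-6: characteristic polynomial of a cusp form over level one

For a cusp form `f` of weight `k` on `Γ₀(N)`, the elementary symmetric functions of its
`SL(2, ℤ)`-translates are level-one cusp forms, and `f` is a root of the resulting monic polynomial.
-/

open UpperHalfPlane ModularForm CongruenceSubgroup SlashInvariantForm
open scoped MatrixGroups ModularForm Topology Filter Manifold

namespace Fermat.Agent.H82

noncomputable section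

lemma multiset_root_esymm {R : Type*} [CommRing R] (s : Multiset R) {x : R} (hx : x ∈ s) :
    x ^ (Multiset.card s) + ∑ i ∈ Finset.range (Multiset.card s),
      ((-1 : R) ^ (Multiset.card s - i) * s.esymm (Multiset.card s - i)) * x ^ i = 0 := by
  set μ := Multiset.card s with hμ
  have hprod : (s.map fun t => Polynomial.X - Polynomial.C t).prod.eval x = 0 := by
    rw [Polynomial.eval_multiset_prod]
    apply Multiset.prod_eq_zero
    simp only [Multiset.map_map, Multiset.mem_map, Function.comp]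
    exact ⟨x, hx, by simp⟩
  rw [Multiset.prod_X_sub_X_eq_sum_esymm, ← hμ, Polynomial.eval_finsetSum] at hprod
  simp only [Polynomial.eval_mul, Polynomial.eval_pow, Polynomial.eval_neg, Polynomial.eval_one,
    Polynomial.eval_C, Polynomial.eval_X] at hprod
  rw [← Finset.sum_range_reflect, Finset.sum_range_succ] at hprod
  simp only [Nat.add_sub_cancel] at hprod
  rw [add_comm]
  have h0 : s.esymm 0 = 1 := by simp [Multiset.esymm]
  rw [Nat.sub_self, pow_zero, one_mul, h0, one_mul, Nat.sub_zero] at hprod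
  rw [← hprod]
  congr 1
  refine Finset.sum_congr rfl fun i hi => ?_
  have hi' : i < μ := Finset.mem_range.mp hi
  have e2 : μ - (μ - i) = i := by omega
  rw [e2, mul_assoc]

section general

variable {𝒢 ℋ : Subgroup (GL (Fin 2) ℝ)} {F : Type*} (f : F) [FunLike F ℍ ℂ] {k : ℤ}

local notation "𝒬" => ℋ ⧸ (𝒢.subgroupOf ℋ)

/-- The `n`-th elementary symmetric function of the translates of `f`. -/
def esymmFun [SlashInvariantFormClass F 𝒢 k] [𝒢.IsFiniteRelIndex ℋ] (n : ℕ) : ℍ → ℂ :=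
  let := Fintype.ofFinite 𝒬
  ∑ S ∈ Finset.powersetCard n (Finset.univ : Finset 𝒬), ∏ q ∈ S, quotientFunc f q

variable (ℋ)

lemma esymmFun_slash [SlashInvariantFormClass F 𝒢 k] [𝒢.IsFiniteRelIndex ℋ]
    (n : ℕ) (g : GL (Fin 2) ℝ) :
    esymmFun (ℋ := ℋ) f n ∣[k * (n : ℤ)] g =
      let := Fintype.ofFinite 𝒬
      ∑ S ∈ Finset.powersetCard n (Finset.univ : Finset 𝒬),
        |(g.det : ℝ)| ^ ((n : ℤ) - 1) • ∏ q ∈ S, (quotientFunc f q ∣[k] g) := by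
  let := Fintype.ofFinite 𝒬
  show (∑ S ∈ Finset.powersetCard n (Finset.univ : Finset 𝒬), ∏ q ∈ S, quotientFunc f q)
      ∣[k * (n : ℤ)] g = _
  rw [SlashAction.sum_slash]
  refine Finset.sum_congr rfl fun S hS => ?_
  have hcard : S.card = n := (Finset.mem_powersetCard.mp hS).2
  have := prod_slash (k := k) (g := g) (f := fun q : 𝒬 => quotientFunc f q) (s := S)
  rw [hcard] at this
  exact this

lemma esymmFun_slash_of_mem [SlashInvariantFormClass F 𝒢 k] [𝒢.IsFiniteRelIndex ℋ]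
    [ℋ.HasDetPlusMinusOne] (n : ℕ) {h : GL (Fin 2) ℝ} (hh : h ∈ ℋ) :
    esymmFun (ℋ := ℋ) f n ∣[k * (n : ℤ)] h = esymmFun (ℋ := ℋ) f n := by
  let := Fintype.ofFinite 𝒬
  rw [esymmFun_slash]
  show (∑ S ∈ Finset.powersetCard n (Finset.univ : Finset 𝒬),
        |(h.det : ℝ)| ^ ((n : ℤ) - 1) • ∏ q ∈ S, (quotientFunc f q ∣[k] h)) =
      ∑ S ∈ Finset.powersetCard n (Finset.univ : Finset 𝒬), ∏ q ∈ S, quotientFunc f q
  have hdet : |(h.det : ℝ)| = 1 := Subgroup.HasDetPlusMinusOne.abs_det hh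
  simp only [hdet, one_zpow, one_smul, quotientFunc_smul f hh]
  let e : 𝒬 ≃ 𝒬 := MulAction.toPerm ((⟨h, hh⟩ : ℋ)⁻¹)
  refine Finset.sum_equiv (Equiv.finsetCongr e) (fun S => ?_) (fun S _ => ?_)
  · simp [Finset.mem_powersetCard]
  · simp only [Equiv.finsetCongr_apply, Finset.prod_map]
    rfl

lemma mdiff_quotientFunc [ModularFormClass F 𝒢 k] (q : 𝒬) : MDiff (quotientFunc f q) :=
  Quotient.inductionOn q fun r => (ModularForm.translate f r.val⁻¹).holo'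

lemma mdiff_esymmFun [ModularFormClass F 𝒢 k] [𝒢.IsFiniteRelIndex ℋ] (n : ℕ) :
    MDiff (esymmFun (ℋ := ℋ) f n) := by
  let := Fintype.ofFinite 𝒬
  exact .sum fun S _ => .prod fun q _ => mdiff_quotientFunc ℋ f q

lemma isZeroAtImInfty_quotientFunc_slash [CuspFormClass F 𝒢 k] [𝒢.IsFiniteRelIndex ℋ]
    {c : OnePoint ℝ} (hc : IsCusp c ℋ) (γ : GL (Fin 2) ℝ) (hγ : γ • OnePoint.infty = c) (q : 𝒬) :
    IsZeroAtImInfty (quotientFunc f q ∣[k] γ) := by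
  induction q using Quotient.inductionOn with
  | h r =>
    obtain ⟨r, hr⟩ := r
    refine (CuspForm.translate f _).zero_at_cusps' ?_ γ hγ
    simpa using hc.of_isFiniteRelIndex_conj hr

lemma isZeroAtImInfty_esymmFun_slash [CuspFormClass F 𝒢 k] [𝒢.IsFiniteRelIndex ℋ]
    {c : OnePoint ℝ} (hc : IsCusp c ℋ) (γ : GL (Fin 2) ℝ) (hγ : γ • OnePoint.infty = c)
    {n : ℕ} (hn : 0 < n) :
    IsZeroAtImInfty (esymmFun (ℋ := ℋ) f n ∣[k * (n : ℤ)] γ) := by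
  let := Fintype.ofFinite 𝒬
  rw [esymmFun_slash]
  show IsZeroAtImInfty (∑ S ∈ Finset.powersetCard n (Finset.univ : Finset 𝒬),
        |(γ.det : ℝ)| ^ ((n : ℤ) - 1) • ∏ q ∈ S, (quotientFunc f q ∣[k] γ))
  simp only [IsZeroAtImInfty, Filter.ZeroAtFilter]
  rw [show (0 : ℂ) = ∑ S ∈ Finset.powersetCard n (Finset.univ : Finset 𝒬), (0 : ℂ) by simp,
    Finset.sum_fn]
  refine tendsto_finsetSum _ fun S hS => ?_
  have hcard : S.card = n := (Finset.mem_powersetCard.mp hS).2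
  have hne : S.Nonempty := by
    rw [← Finset.card_pos, hcard]; exact hn
  obtain ⟨q₀, hq₀⟩ := hne
  have h0 : (0 : ℂ) = |(γ.det : ℝ)| ^ ((n : ℤ) - 1) • ∏ q ∈ S, (0 : ℂ) := by
    rw [Finset.prod_eq_zero hq₀ rfl, smul_zero]
  rw [h0]
  have : (|(γ.det : ℝ)| ^ ((n : ℤ) - 1) • ∏ q ∈ S, (quotientFunc f q ∣[k] γ)) =
      fun τ => |(γ.det : ℝ)| ^ ((n : ℤ) - 1) • ∏ q ∈ S, (quotientFunc f q ∣[k] γ) τ := by
    ext τ
    simp [Finset.prod_apply]
  rw [this]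
  refine Filter.Tendsto.const_smul ?_ _
  exact tendsto_finsetProd _ fun q _ => isZeroAtImInfty_quotientFunc_slash ℋ f hc γ hγ q

/-- The elementary symmetric function of the translates of a cusp form, as a cusp form of
level `ℋ`. -/
def esymmCuspForm [CuspFormClass F 𝒢 k] [𝒢.IsFiniteRelIndex ℋ] [ℋ.HasDetPlusMinusOne]
    {n : ℕ} (hn : 0 < n) : CuspForm ℋ (k * (n : ℤ)) where
  toFun := esymmFun (ℋ := ℋ) f n
  slash_action_eq' _ hh := esymmFun_slash_of_mem ℋ f n hh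
  holo' := mdiff_esymmFun ℋ f n
  zero_at_cusps' hc γ hγ := isZeroAtImInfty_esymmFun_slash ℋ f hc γ hγ hn

lemma coe_esymmCuspForm [CuspFormClass F 𝒢 k] [𝒢.IsFiniteRelIndex ℋ] [ℋ.HasDetPlusMinusOne]
    {n : ℕ} (hn : 0 < n) : ⇑(esymmCuspForm ℋ f hn) = esymmFun (ℋ := ℋ) f n := rfl

/-- Pointwise, the function `f` is a root of the polynomial whose coefficients are the signed
elementary symmetric functions of its translates. -/
lemma esymmFun_root [SlashInvariantFormClass F 𝒢 k] [𝒢.IsFiniteRelIndex ℋ] (τ : ℍ) :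
    (f τ) ^ (Nat.card 𝒬) + ∑ i ∈ Finset.range (Nat.card 𝒬),
      ((-1 : ℂ) ^ (Nat.card 𝒬 - i) * esymmFun (ℋ := ℋ) f (Nat.card 𝒬 - i) τ) * (f τ) ^ i = 0 := by
  let := Fintype.ofFinite 𝒬
  let a : 𝒬 → ℂ := fun q => quotientFunc f q τ
  let s : Multiset ℂ := (Finset.univ : Finset 𝒬).val.map a
  have hcard : Multiset.card s = Nat.card 𝒬 := by
    simp [s, Nat.card_eq_fintype_card]
  have hesymm : ∀ n, s.esymm n = esymmFun (ℋ := ℋ) f n τ := by
    intro n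
    simp only [s, Finset.esymm_map_val, esymmFun, Finset.sum_apply, Finset.prod_apply, a]
  have hf : f τ = a ⟦1⟧ := by
    simp [a]
  have hmem : f τ ∈ s := by
    simp only [s, Multiset.mem_map]
    exact ⟨⟦1⟧, Finset.mem_univ _, hf.symm⟩
  have := multiset_root_esymm s hmem
  simpa only [hcard, hesymm] using this

end general

theorem exists_charpoly (N : ℕ) [NeZero N] (k : ℤ) (f : CuspForm (Gamma0 N) k) :
    ∃ (μ : ℕ) (c : ℕ → ℍ → ℂ), 0 < μ ∧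
      (∀ i < μ, ∃ g : CuspForm 𝒮ℒ (k * ((μ : ℤ) - (i : ℤ))), ⇑g = c i) ∧
      (⇑f) ^ μ + ∑ i ∈ Finset.range μ, c i * (⇑f) ^ i = 0 := by
  let 𝒢 : Subgroup (GL (Fin 2) ℝ) := (Gamma0 N : Subgroup (GL (Fin 2) ℝ))
  refine ⟨Nat.card (𝒮ℒ ⧸ 𝒢.subgroupOf 𝒮ℒ),
    fun i => (-1 : ℂ) ^ (Nat.card (𝒮ℒ ⧸ 𝒢.subgroupOf 𝒮ℒ) - i) •
      esymmFun (ℋ := 𝒮ℒ) f (Nat.card (𝒮ℒ ⧸ 𝒢.subgroupOf 𝒮ℒ) - i), Nat.card_pos, ?_, ?_⟩
  · intro i hi
    have hn : 0 < Nat.card (𝒮ℒ ⧸ 𝒢.subgroupOf 𝒮ℒ) - i := Nat.sub_pos_of_lt hi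
    have hw : k * ((Nat.card (𝒮ℒ ⧸ 𝒢.subgroupOf 𝒮ℒ) - i : ℕ) : ℤ) =
        k * ((Nat.card (𝒮ℒ ⧸ 𝒢.subgroupOf 𝒮ℒ) : ℤ) - (i : ℤ)) := by
      rw [Nat.cast_sub hi.le]
    have key : ∀ (w w' : ℤ) (_ : w = w') (g : CuspForm 𝒮ℒ w), ∃ g' : CuspForm 𝒮ℒ w', ⇑g' = ⇑g := by
      rintro w w' rfl g
      exact ⟨g, rfl⟩
    obtain ⟨g', hg'⟩ := key _ _ hw
      ((-1 : ℂ) ^ (Nat.card (𝒮ℒ ⧸ 𝒢.subgroupOf 𝒮ℒ) - i) • esymmCuspForm 𝒮ℒ f hn)
    refine ⟨g', ?_⟩
    rw [hg']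
    rfl
  · funext τ
    have := esymmFun_root 𝒮ℒ f τ
    simp only [Pi.add_apply, Pi.pow_apply, Finset.sum_apply, Pi.mul_apply, Pi.smul_apply,
      smul_eq_mul, Pi.zero_apply]
    exact this

end

end Fermat.Agent.H82
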