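/-
P-ES / ES-C2-NORM (helper82, second attempt): pure algebra.

* `ecn_eq_minpoly_pow`  : a monic polynomial all of whose nonconstant monic factors vanish at
  `x` is a power of the minimal polynomial of `x`;
* `ecn_norm_eq_of_minpoly_pow` : if `P = (minpoly K x) ^ a` has degree `[L : K]` then
  `N_{L/K}(x) = (-1) ^ [L : K] * P(0)`;
* `ecn_exists_clear_denominators` : clearing denominators of a polynomial over a field with
  respect to a subring whose fractions exhaust the field.
-/
import Mathlib

set_option autoImplicit false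

noncomputable section

open Polynomial IntermediateField

namespace Fermat.Agent.H82

/-- A monic polynomial all of whose nonconstant monic factors vanish at `x` is a power of the
minimal polynomial of `x`. -/
theorem ecn_eq_minpoly_pow {K L : Type*} [Field K] [Field L] [Algebra K L] (x : L)
    (hx : IsIntegral K x) (P : K[X]) (hP : P.Monic)
    (H : ∀ R W : K[X], P = R * W → R.Monic → 0 < R.natDegree → aeval x R = 0) :
    ∃ a : ℕ, P = minpoly K x ^ a := by
  have hm : (minpoly K x).Monic := minpoly.monic hx
  have hdeg : (0 : WithBot ℕ) < (minpoly K x).degree := minpoly.degree_pos hx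
  have hfin := finiteMultiplicity_of_degree_pos_of_monic hdeg hm hP.ne_zero
  obtain ⟨c, hc, hnd⟩ := hfin.exists_eq_pow_mul_and_not_dvd
  generalize multiplicity (minpoly K x) P = a at hc
  have hcm : c.Monic := (hm.pow _).of_mul_monic_left (hc ▸ hP)
  refine ⟨a, ?_⟩
  by_cases hc0 : 0 < c.natDegree
  · exfalso
    have h0 := H c (minpoly K x ^ a) (by rw [hc, mul_comm]) hcm hc0
    exact hnd (minpoly.dvd K x h0)
  · have : c = 1 := hcm.natDegree_eq_zero.mp (Nat.eq_zero_of_not_pos hc0)
    rw [hc, this, mul_one]

/-- If `P = (minpoly K x) ^ a` has degree `[L : K]`, then `N_{L/K}(x) = (-1) ^ [L : K] * P(0)`. -/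
theorem ecn_norm_eq_of_minpoly_pow {K L : Type*} [Field K] [Field L] [Algebra K L]
    [FiniteDimensional K L] (x : L) (P : K[X]) (a : ℕ) (hPa : P = minpoly K x ^ a)
    (hdeg : P.natDegree = Module.finrank K L) :
    Algebra.norm K x = (-1) ^ Module.finrank K L * P.coeff 0 := by
  have hx : IsIntegral K x := Algebra.IsIntegral.isIntegral x
  have hm : (minpoly K x).Monic := minpoly.monic hx
  have hd : 0 < (minpoly K x).natDegree := minpoly.natDegree_pos hx
  have h1 : Module.finrank K K⟮x⟯ = (minpoly K x).natDegree := adjoin.finrank hx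
  have h2 : Module.finrank K K⟮x⟯ * Module.finrank K⟮x⟯ L = Module.finrank K L :=
    Module.finrank_mul_finrank K K⟮x⟯ L
  have h3 : P.natDegree = a * (minpoly K x).natDegree := by
    rw [hPa, hm.natDegree_pow]
  have ha : a = Module.finrank K⟮x⟯ L := by
    have : a * (minpoly K x).natDegree
        = Module.finrank K⟮x⟯ L * (minpoly K x).natDegree := by
      rw [← h3, hdeg, ← h2, h1, mul_comm]
    exact Nat.eq_of_mul_eq_mul_right hd this
  have h4 : Algebra.norm K (AdjoinSimple.gen K x)
      = (-1) ^ (minpoly K x).natDegree * (minpoly K x).coeff 0 := by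
    have := Algebra.PowerBasis.norm_gen_eq_coeff_zero_minpoly (adjoin.powerBasis hx)
    rw [adjoin.powerBasis_gen hx, adjoin.powerBasis_dim hx, minpoly_gen] at this
    exact this
  rw [Algebra.norm_eq_norm_adjoin K x, h4, ← ha, ← hdeg, h3, hPa, mul_pow, ← pow_mul,
    mul_comm (minpoly K x).natDegree a]
  congr 1
  rw [coeff_zero_eq_eval_zero, coeff_zero_eq_eval_zero, eval_pow]

/-- Clearing denominators: if every element of the field `K` is a fraction of elements of the
subring `A`, every polynomial over `K` has a nonzero `A`-multiple with coefficients in `A`. -/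
theorem ecn_exists_clear_denominators {K : Type*} [Field K] (A : Subring K)
    (hfrac : ∀ f : K, ∃ s ∈ A, s ≠ 0 ∧ f * s ∈ A) (R : K[X]) :
    ∃ (b : A) (R' : A[X]), (b : K) ≠ 0 ∧ R'.map A.subtype = C (b : K) * R := by
  induction R using Polynomial.induction_on' with
  | add p q hp hq =>
    obtain ⟨b, p', hb, hp'⟩ := hp
    obtain ⟨c, q', hc, hq'⟩ := hq
    refine ⟨b * c, C c * p' + C b * q', ?_, ?_⟩
    · simpa using mul_ne_zero hb hc
    · rw [Polynomial.map_add, Polynomial.map_mul, Polynomial.map_mul, hp', hq', map_C, map_C]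
      simp only [Subring.coe_subtype, Subring.coe_mul, C_mul]
      ring
  | monomial n f =>
    obtain ⟨s, hs, hs0, hfs⟩ := hfrac f
    refine ⟨⟨s, hs⟩, monomial n ⟨f * s, hfs⟩, hs0, ?_⟩
    rw [map_monomial, C_mul_monomial]
    simp [mul_comm]

end Fermat.Agent.H82

end
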