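/-
P-ES / ES-C2-NORM (helper82, second attempt): the function side.

For a function `F` on the upper half plane the translates `ecnG ℓ F x = F ∘ (heckeRep ℓ x • ·)`,
`x ∈ ℙ¹(𝔽_ℓ)`, are permuted by `Γ₀(N)` (if `F` is `Γ₀(N)`-invariant, `ℓ ∤ N`), transitively; the
coefficients of `ecnPoly ℓ F = ∏ₓ (X - ecnG ℓ F x)` are holomorphic, `Γ₀(N)`-invariant and of
exponential growth at all cusps.
-/
import Fermat.Agent.H21.EsC.Interfaces
import Fermat.Agent.H85.Gen16Nice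
import Fermat.Agent.H82.EsCNormAlg

set_option autoImplicit false

noncomputable section

open UpperHalfPlane CongruenceSubgroup Polynomial Matrix.SpecialLinearGroup
open scoped MatrixGroups Manifold OnePoint
open P2MW.S_ModularForm_heckeT_slash_eq_self_of_mem_Gamma0.ModularForm.HeckeSlashInvariance

namespace Fermat.Agent.H82

/-- The translate of `F` by the Hecke representative `x`. -/
def ecnG (ℓ : ℕ) (F : ℍ → ℂ) (x : OnePoint (ZMod ℓ)) : ℍ → ℂ :=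
  fun z => F (heckeRep ℓ x • z)

theorem ecn_det_heckeRep_pos (ℓ : ℕ) (x : OnePoint (ZMod ℓ)) :
    0 < (heckeRep ℓ x).det.val := by
  induction x using OnePoint.rec with
  | infty => exact ModularForm.det_heckeDiagMatrix_pos ℓ
  | coe j => exact ModularForm.det_heckeMatrix_pos ℓ j.val

theorem ecn_mdiff_G {ℓ : ℕ} {F : ℍ → ℂ} (hF : MDiff F) (x : OnePoint (ZMod ℓ)) :
    MDiff (ecnG ℓ F x) :=
  hF.comp (mdifferentiable_smul (ecn_det_heckeRep_pos ℓ x))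

theorem ecn_G_infty (ℓ : ℕ) [NeZero ℓ] (F : ℍ → ℂ) :
    ecnG ℓ F ∞ = F ∘ Fermat.Agent.H23.scaleH ℓ := by
  funext z
  show F (heckeRep ℓ ∞ • z) = F (Fermat.Agent.H23.scaleH ℓ z)
  congr 1
  apply UpperHalfPlane.ext
  rw [heckeRep_infty, ModularForm.coe_heckeDiagMatrix_smul (NeZero.ne ℓ)]
  rfl

/-- Imaginary part of a Hecke translate: between `im z / ℓ` and `ℓ * im z`. -/
theorem ecn_im_heckeRep (ℓ : ℕ) [NeZero ℓ] (x : OnePoint (ZMod ℓ)) (z : ℍ) :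
    z.im / ℓ ≤ (heckeRep ℓ x • z).im ∧ (heckeRep ℓ x • z).im ≤ ℓ * z.im := by
  have hℓ : (1 : ℝ) ≤ ℓ := by exact_mod_cast Nat.one_le_iff_ne_zero.mpr (NeZero.ne ℓ)
  have hz : 0 < z.im := z.im_pos
  have h1 : z.im / ℓ ≤ z.im := div_le_self hz.le hℓ
  have h2 : z.im ≤ ℓ * z.im := le_mul_of_one_le_left hz.le hℓ
  induction x using OnePoint.rec with
  | infty =>
    have e : (heckeRep ℓ ∞ • z).im = ℓ * z.im := by
      have := congrArg Complex.im (ModularForm.coe_heckeDiagMatrix_smul (NeZero.ne ℓ) z)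
      simpa using this
    rw [e]
    exact ⟨h1.trans h2, le_rfl⟩
  | coe j =>
    have e : (heckeRep ℓ (j : OnePoint (ZMod ℓ)) • z).im = z.im / ℓ := by
      have := congrArg Complex.im (ModularForm.coe_heckeMatrix_smul (NeZero.ne ℓ) j.val z)
      rw [heckeRep_coe]
      have h3 : (((z : ℂ) + (j.val : ℂ)) / (ℓ : ℂ)).im = z.im / ℓ := by
        have : ((z : ℂ) + (j.val : ℂ)) / (ℓ : ℂ)
            = (((z : ℂ) + (j.val : ℂ)) / ((ℓ : ℝ) : ℂ)) := by norm_cast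
        rw [this, Complex.div_ofReal_im, Complex.add_im, Complex.natCast_im, add_zero,
          UpperHalfPlane.coe_im]
      rw [← h3]
      exact this
    rw [e]
    exact ⟨le_rfl, h1.trans h2⟩

/-- Rewriting of a translate composed with an element of `Γ₀(N)` (as a matrix with `N ∣ c`). -/
theorem ecn_G_smul {N ℓ : ℕ} [Fact ℓ.Prime] (hℓN : ¬ ℓ ∣ N) (F : ℍ → ℂ) (g : SL(2, ℤ))
    (hg : (N : ℤ) ∣ g 1 0) (x : OnePoint (ZMod ℓ)) :
    ∃ g' : SL(2, ℤ), (N : ℤ) ∣ g' 1 0 ∧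
      ∀ z : ℍ, ecnG ℓ F x (g • z) = F (g' • (heckeRep ℓ (redMatrix ℓ g • x) • z)) := by
  obtain ⟨g', hg', hmul⟩ := heckeRep_mul hℓN g hg x
  refine ⟨g', hg', fun z => ?_⟩
  show F (heckeRep ℓ x • (g • z)) = _
  congr 1
  rw [ModularGroup.sl_moeb, ModularGroup.sl_moeb, ← mul_smul, ← mul_smul]
  congr 1

theorem ecn_dvd_of_mem_Gamma0 {N : ℕ} {g : SL(2, ℤ)} (hg : g ∈ Gamma0 N) : (N : ℤ) ∣ g 1 0 :=
  (ZMod.intCast_zmod_eq_zero_iff_dvd _ _).mp (Gamma0_mem.mp hg)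

theorem ecn_mem_Gamma0_of_dvd {N : ℕ} {g : SL(2, ℤ)} (hg : (N : ℤ) ∣ g 1 0) : g ∈ Gamma0 N :=
  Gamma0_mem.mpr ((ZMod.intCast_zmod_eq_zero_iff_dvd _ _).mpr hg)

/-- `Γ₀(N)` permutes the translates of a `Γ₀(N)`-invariant function. -/
theorem ecn_G_smul_of_invariant {N ℓ : ℕ} [Fact ℓ.Prime] (hℓN : ¬ ℓ ∣ N) {F : ℍ → ℂ}
    (hinv : ∀ γ ∈ Gamma0 N, ∀ z : ℍ, F (γ • z) = F z) (g : SL(2, ℤ)) (hg : g ∈ Gamma0 N)
    (x : OnePoint (ZMod ℓ)) (z : ℍ) :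
    ecnG ℓ F x (g • z) = ecnG ℓ F (redMatrix ℓ g • x) z := by
  obtain ⟨g', hg', h⟩ := ecn_G_smul hℓN F g (ecn_dvd_of_mem_Gamma0 hg) x
  rw [h z, hinv g' (ecn_mem_Gamma0_of_dvd hg')]
  rfl

/-- `Γ₀(N)` acts transitively on `ℙ¹(𝔽_ℓ)` for `ℓ ∤ N`. -/
theorem ecn_transitive (N ℓ : ℕ) [Fact ℓ.Prime] (hℓN : ¬ ℓ ∣ N) (x : OnePoint (ZMod ℓ)) :
    ∃ g ∈ Gamma0 N, redMatrix ℓ g • (∞ : OnePoint (ZMod ℓ)) = x := by
  have hp : ℓ.Prime := Fact.out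
  induction x using OnePoint.rec with
  | infty =>
    refine ⟨1, one_mem _, ?_⟩
    rw [OnePoint.smul_infty_eq_ite, if_pos]
    rw [redMatrix_apply_one_zero]
    simp
  | coe j =>
    have hcop : IsCoprime (N : ℤ) ((ℓ : ℤ) + (N : ℤ) * (j.val : ℤ)) := by
      have h0 : IsCoprime (N : ℤ) (ℓ : ℤ) :=
        Nat.isCoprime_iff_coprime.mpr ((Nat.Prime.coprime_iff_not_dvd hp).mpr hℓN).symm
      exact h0.add_mul_left_right _
    obtain ⟨g, -, hg⟩ := ModularGroup.bottom_row_surj (R := ℤ)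
      (show (![(N : ℤ), (ℓ : ℤ) + (N : ℤ) * (j.val : ℤ)]) ∈
        {cd : Fin 2 → ℤ | IsCoprime (cd 0) (cd 1)} from hcop) 
    have h10 : g 1 0 = (N : ℤ) := by
      have := congrFun hg 0
      simpa using this
    have h11 : g 1 1 = (ℓ : ℤ) + (N : ℤ) * (j.val : ℤ) := by
      have := congrFun hg 1
      simpa using this
    have hN0 : ((N : ℤ) : ZMod ℓ) ≠ 0 := by
      rw [Int.cast_natCast, Ne, ZMod.natCast_eq_zero_iff]
      exact hℓN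
    refine ⟨g, ecn_mem_Gamma0_of_dvd (by rw [h10]), ?_⟩
    rw [OnePoint.smul_infty_eq_ite, if_neg (by rw [redMatrix_apply_one_zero, h10]; exact hN0)]
    congr 1
    rw [redMatrix_apply_zero_zero, redMatrix_apply_one_zero, h10, h11]
    push_cast
    rw [ZMod.natCast_self, zero_add, ZMod.natCast_zmod_val]
    rw [Int.cast_natCast] at hN0
    field_simp

/-! ### Growth -/

/-- Holomorphic with exponential growth at all cusps. -/
def EcnGr (h : ℍ → ℂ) : Prop :=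
  MDiff h ∧ ∀ γ : SL(2, ℤ), Fermat.Agent.H85.ExpGrowth (fun z => h (γ • z))

/-- The ring of holomorphic functions with exponential growth at all cusps. -/
def ecnGrRing : Subring (ℍ → ℂ) where
  carrier := {h | EcnGr h}
  mul_mem' hf hg := ⟨hf.1.mul hg.1, fun γ => (hf.2 γ).mul (hg.2 γ)⟩
  one_mem' := ⟨mdifferentiable_const, fun _ => Fermat.Agent.H85.expGrowth_const 1⟩
  add_mem' hf hg := ⟨hf.1.add hg.1, fun γ => (hf.2 γ).add (hg.2 γ)⟩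
  zero_mem' := ⟨mdifferentiable_const, fun _ => Fermat.Agent.H85.expGrowth_const 0⟩
  neg_mem' hf := ⟨hf.1.neg, fun γ => (hf.2 γ).neg⟩

theorem mem_ecnGrRing {h : ℍ → ℂ} : h ∈ ecnGrRing ↔ EcnGr h := Iff.rfl

theorem ecn_gr_G {ℓ : ℕ} [Fact ℓ.Prime] {F : ℍ → ℂ} (hF : EcnGr F) (x : OnePoint (ZMod ℓ)) :
    EcnGr (ecnG ℓ F x) := by
  have hp : ℓ.Prime := Fact.out
  have : NeZero ℓ := ⟨hp.ne_zero⟩
  refine ⟨ecn_mdiff_G hF.1 x, fun γ => ?_⟩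
  have h1 : ¬ ℓ ∣ 1 := fun h => hp.one_lt.ne' (Nat.dvd_one.mp h)
  obtain ⟨g', -, h⟩ := ecn_G_smul (N := 1) h1 F γ (by simp) x
  obtain ⟨M, C, Y, hC, hb⟩ := hF.2 g'
  have hℓ : (0 : ℝ) < ℓ := by exact_mod_cast hp.pos
  refine ⟨M * ℓ, C, ℓ * |Y|, hC, fun z hz => ?_⟩
  show ‖ecnG ℓ F x (γ • z)‖ ≤ _
  rw [h z]
  obtain ⟨i1, i2⟩ := ecn_im_heckeRep ℓ (redMatrix ℓ γ • x) z
  have hY : Y ≤ (heckeRep ℓ (redMatrix ℓ γ • x) • z).im := by
    have : |Y| ≤ z.im / ℓ := by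
      rw [le_div_iff₀ hℓ]
      linarith
    exact (le_abs_self Y).trans (this.trans i1)
  have hb' : ‖F (g' • (heckeRep ℓ (redMatrix ℓ γ • x) • z))‖
      ≤ C * Real.exp (2 * Real.pi * M * (heckeRep ℓ (redMatrix ℓ γ • x) • z).im) := hb _ hY
  refine hb'.trans ?_
  refine mul_le_mul_of_nonneg_left (Real.exp_le_exp.mpr ?_) hC
  have hpi : 0 < Real.pi := Real.pi_pos
  have hM : (0 : ℝ) ≤ M := Nat.cast_nonneg M
  push_cast
  have : 2 * Real.pi * M * (heckeRep ℓ (redMatrix ℓ γ • x) • z).im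
      ≤ 2 * Real.pi * M * (ℓ * z.im) :=
    mul_le_mul_of_nonneg_left i2 (by positivity)
  linarith

/-! ### The polynomial of the translates -/

/-- `∏ₓ (X - F ∘ αₓ)`, a polynomial over the ring of functions on `ℍ`. -/
def ecnPoly (ℓ : ℕ) [NeZero ℓ] (F : ℍ → ℂ) : (ℍ → ℂ)[X] :=
  ∏ x : OnePoint (ZMod ℓ), (X - C (ecnG ℓ F x))

theorem ecn_card (ℓ : ℕ) [NeZero ℓ] : Fintype.card (OnePoint (ZMod ℓ)) = ℓ + 1 := by
  rw [show Fintype.card (OnePoint (ZMod ℓ)) = Fintype.card (Option (ZMod ℓ)) from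
    Fintype.card_congr (Equiv.refl _), Fintype.card_option, ZMod.card]

theorem ecnPoly_monic (ℓ : ℕ) [NeZero ℓ] (F : ℍ → ℂ) : (ecnPoly ℓ F).Monic :=
  monic_prod_of_monic _ _ fun _ _ => monic_X_sub_C _

theorem ecnPoly_natDegree (ℓ : ℕ) [NeZero ℓ] (F : ℍ → ℂ) : (ecnPoly ℓ F).natDegree = ℓ + 1 := by
  unfold ecnPoly
  rw [natDegree_prod_of_monic _ _ fun _ _ => monic_X_sub_C _]
  simp only [natDegree_X_sub_C, Finset.sum_const, smul_eq_mul, mul_one, Finset.card_univ]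
  exact ecn_card ℓ

theorem ecnPoly_coeff_zero (ℓ : ℕ) [NeZero ℓ] (F : ℍ → ℂ) :
    (ecnPoly ℓ F).coeff 0
      = (-1) ^ (ℓ + 1) * Fermat.Agent.H21.EsC.heckeProd ℓ F := by
  unfold ecnPoly
  rw [coeff_zero_eq_eval_zero, eval_prod]
  simp only [eval_sub, eval_X, eval_C, zero_sub]
  rw [Finset.prod_neg, Finset.card_univ, ecn_card]
  congr 1
  funext z
  simp [Fermat.Agent.H21.EsC.heckeProd, ecnG, Finset.prod_apply]

theorem ecnPoly_mem_lifts {ℓ : ℕ} [Fact ℓ.Prime] [NeZero ℓ] {F : ℍ → ℂ} (hF : EcnGr F) :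
    ecnPoly ℓ F ∈ lifts ecnGrRing.subtype := by
  unfold ecnPoly
  refine Subsemiring.prod_mem _ fun x _hx => ?_
  have : (X - C (ecnG ℓ F x) : (ℍ → ℂ)[X])
      = X + C (ecnGrRing.subtype ⟨-(ecnG ℓ F x), ecnGrRing.neg_mem (ecn_gr_G hF x)⟩) := by
    simp [sub_eq_add_neg]
  rw [this]
  exact Subsemiring.add_mem _ (X_mem_lifts _) (C'_mem_lifts ⟨_, rfl⟩)

theorem ecnPoly_coeff_gr {ℓ : ℕ} [Fact ℓ.Prime] [NeZero ℓ] {F : ℍ → ℂ} (hF : EcnGr F) (k : ℕ) :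
    EcnGr ((ecnPoly ℓ F).coeff k) := by
  obtain ⟨a, ha⟩ := (lifts_iff_coeff_lifts (ecnPoly ℓ F)).mp (ecnPoly_mem_lifts hF) k
  rw [← ha]
  exact a.2

/-- Precomposition with the action of `γ`, as a ring homomorphism of the ring of functions. -/
def ecnPre (γ : SL(2, ℤ)) : (ℍ → ℂ) →+* (ℍ → ℂ) where
  toFun h := fun z => h (γ • z)
  map_one' := rfl
  map_mul' _ _ := rfl
  map_zero' := rfl
  map_add' _ _ := rfl

theorem ecnPoly_map_pre {N ℓ : ℕ} [Fact ℓ.Prime] [NeZero ℓ] (hℓN : ¬ ℓ ∣ N) {F : ℍ → ℂ}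
    (hinv : ∀ γ ∈ Gamma0 N, ∀ z : ℍ, F (γ • z) = F z) (g : SL(2, ℤ)) (hg : g ∈ Gamma0 N) :
    (ecnPoly ℓ F).map (ecnPre g) = ecnPoly ℓ F := by
  classical
  unfold ecnPoly
  rw [Polynomial.map_prod]
  have : ∀ x : OnePoint (ZMod ℓ), (X - C (ecnG ℓ F x) : (ℍ → ℂ)[X]).map (ecnPre g)
      = X - C (ecnG ℓ F (MulAction.toPerm (redMatrix ℓ g) x)) := by
    intro x
    rw [Polynomial.map_sub, map_X, map_C]
    congr 2
    funext z
    exact ecn_G_smul_of_invariant hℓN hinv g hg x z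
  rw [Finset.prod_congr rfl fun x _ => this x]
  exact Equiv.prod_comp (MulAction.toPerm (redMatrix ℓ g))
    (fun x => (X - C (ecnG ℓ F x) : (ℍ → ℂ)[X]))

theorem ecnPoly_coeff_invariant {N ℓ : ℕ} [Fact ℓ.Prime] [NeZero ℓ] (hℓN : ¬ ℓ ∣ N) {F : ℍ → ℂ}
    (hinv : ∀ γ ∈ Gamma0 N, ∀ z : ℍ, F (γ • z) = F z) (k : ℕ) (g : SL(2, ℤ))
    (hg : g ∈ Gamma0 N) (z : ℍ) :
    (ecnPoly ℓ F).coeff k (g • z) = (ecnPoly ℓ F).coeff k z := by
  have h := congrArg (fun P => P.coeff k z) (ecnPoly_map_pre hℓN hinv g hg)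
  simpa [coeff_map, ecnPre] using h

end Fermat.Agent.H82

end
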