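/-
P-ES / ES-C2-NORM (helper82, second attempt): `NormRepStatement`.

If the holomorphic function `F` represents `f ∈ FC N` then `∏ₓ F ∘ αₓ` (product over the Hecke
representatives of `T_ℓ`, `ℓ ∤ N`) represents the norm of `β f` along `α : FC N → FC (N ℓ)`.

Route: `P = ∏ₓ (X - F ∘ αₓ)` has coefficients in `FC N` (they are holomorphic, invariant, of
moderate growth); every nonconstant monic factor of `P` over `FC N` vanishes at `β f`
(pointwise roots + identity theorem + transitivity of `Γ₀(N)` on `ℙ¹(𝔽_ℓ)`), so `P` is a power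
of the minimal polynomial of `β f`; the degrees agree, whence the norm is `± P(0)`.
-/
import Fermat.Agent.H82.EsCNormFun
import Fermat.Agent.H23.EsA.Lemmas
import Fermat.Agent.H23.EsA.Parts
import Fermat.Agent.H44.Gen11.Scale
import Fermat.Agent.H77.EsAGrow

set_option autoImplicit false

noncomputable section

open UpperHalfPlane CongruenceSubgroup Polynomial Matrix.SpecialLinearGroup AlgebraicCurve
open scoped MatrixGroups Manifold OnePoint
open ModularCurve
open P2MW.S_ModularForm_heckeT_slash_eq_self_of_mem_Gamma0.ModularForm.HeckeSlashInvariance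

namespace Fermat.Agent.H82

open Fermat.Agent.H44 Fermat.Agent.H23.EsA Fermat.Agent.H21.EsC

/-! ### Calculus of the representation relation -/

theorem ecn_laurentRel_neg {h : ℍ → ℂ} {x : LaurentSeries ℂ} (H : LaurentRel h x) :
    LaurentRel (-h) (-x) := by
  have h1 := (laurentRel_const (-1)).mul H
  have e1 : (fun _ : ℍ => (-1 : ℂ)) * h = -h := by
    funext z
    simp
  have e2 : (HahnSeries.C (-1 : ℂ) : LaurentSeries ℂ) * x = -x := by
    rw [map_neg, map_one, neg_one_mul]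
  rwa [e1, e2] at h1

theorem ecn_laurentRel_pow {h : ℍ → ℂ} {x : LaurentSeries ℂ} (H : LaurentRel h x) (n : ℕ) :
    LaurentRel (h ^ n) (x ^ n) := by
  induction n with
  | zero => simpa using laurentRel_one
  | succ n ih => rw [pow_succ, pow_succ]; exact ih.mul H

/-- The subring of `FC N` of the elements represented by a holomorphic function on `ℍ`. -/
def ecnA (N : ℕ) : Subring ↥(FC N) where
  carrier := {f | ∃ h : ℍ → ℂ, Rep N h f}
  mul_mem' := by
    rintro a b ⟨h, hh⟩ ⟨h', hh'⟩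
    exact ⟨h * h', LaurentRel.mul hh hh'⟩
  one_mem' := ⟨1, laurentRel_one⟩
  add_mem' := by
    rintro a b ⟨h, hh⟩ ⟨h', hh'⟩
    exact ⟨h + h', LaurentRel.add hh hh'⟩
  zero_mem' := ⟨0, laurentRel_zero⟩
  neg_mem' := by
    rintro a ⟨h, hh⟩
    exact ⟨-h, ecn_laurentRel_neg hh⟩

/-- The inclusion of the representable elements into the Laurent series. -/
def ecnPhi (N : ℕ) : ↥(ecnA N) →+* LaurentSeries ℂ :=
  (algebraMap ↥(FC N) (LaurentSeries ℂ)).comp (ecnA N).subtype

theorem ecnPhi_apply (N : ℕ) (r : ↥(ecnA N)) :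
    ecnPhi N r = ((r : ↥(FC N)) : LaurentSeries ℂ) := rfl

theorem ecn_exists_theta (N : ℕ) :
    ∃ Θ : ↥(ecnA N) →+* (ℍ → ℂ), ∀ r, LaurentRel (Θ r) (ecnPhi N r) :=
  gen11_exists_lift (ecnPhi N) (fun r => r.2)

theorem ecn_laurentRel_eval₂ {R : Type*} [CommRing R] (Θ : R →+* (ℍ → ℂ))
    (φ : R →+* LaurentSeries ℂ) (hΘ : ∀ r, LaurentRel (Θ r) (φ r)) {G : ℍ → ℂ}
    {g : LaurentSeries ℂ} (hG : LaurentRel G g) (P : R[X]) :
    LaurentRel (P.eval₂ Θ G) (P.eval₂ φ g) := by
  induction P using Polynomial.induction_on' with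
  | add p q hp hq => rw [eval₂_add, eval₂_add]; exact hp.add hq
  | monomial n r =>
    rw [eval₂_monomial, eval₂_monomial]
    exact (hΘ r).mul (ecn_laurentRel_pow hG n)

theorem ecn_mdiff_eval₂ {R : Type*} [CommRing R] (Θ : R →+* (ℍ → ℂ))
    (hΘ : ∀ r, MDiff (Θ r)) {G : ℍ → ℂ} (hG : MDiff G) (P : R[X]) :
    MDiff (P.eval₂ Θ G) := by
  induction P using Polynomial.induction_on' with
  | add p q hp hq => rw [eval₂_add]; exact hp.add hq
  | monomial n r =>
    rw [eval₂_monomial]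
    exact (hΘ r).mul (hG.pow n)

theorem ecn_eval₂_apply {R : Type*} [CommRing R] (Θ : R →+* (ℍ → ℂ)) (G : ℍ → ℂ) (P : R[X])
    (z : ℍ) :
    P.eval₂ Θ G z = (P.map ((Pi.evalRingHom (fun _ : ℍ => ℂ) z).comp Θ)).eval (G z) := by
  have := Polynomial.hom_eval₂ P Θ (Pi.evalRingHom (fun _ : ℍ => ℂ) z) G
  rw [eval_map]
  exact this

theorem ecn_mdiff_prod {ι : Type*} (s : Finset ι) (f : ι → ℍ → ℂ)
    (hf : ∀ i, MDiff (f i)) : MDiff (fun z : ℍ => ∏ i ∈ s, f i z) := by
  classical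
  induction s using Finset.induction_on with
  | empty => simpa using (mdifferentiable_const : MDiff (fun _ : ℍ => (1 : ℂ)))
  | insert b t hb iht =>
    have : (fun z : ℍ => ∏ i ∈ insert b t, f i z) = f b * fun z : ℍ => ∏ i ∈ t, f i z := by
      funext z
      rw [Finset.prod_insert hb]
      rfl
    rw [this]
    exact (hf b).mul iht

/-- Holomorphic functions on `ℍ` form a domain (finite products). -/
theorem ecn_exists_eq_zero_of_prod {ι : Type*} (s : Finset ι) (f : ι → ℍ → ℂ)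
    (hf : ∀ i, MDiff (f i)) (h : ∀ z : ℍ, ∏ i ∈ s, f i z = 0) : ∃ i ∈ s, f i = 0 := by
  classical
  induction s using Finset.induction_on with
  | empty => simp at h
  | insert a s ha ih =>
    have hmd : MDiff (fun z : ℍ => ∏ i ∈ s, f i z) := ecn_mdiff_prod s f hf
    by_cases h0 : (fun z : ℍ => ∏ i ∈ s, f i z) = 0
    · obtain ⟨i, hi, hi0⟩ := ih (fun z => congrFun h0 z)
      exact ⟨i, Finset.mem_insert_of_mem hi, hi0⟩
    · refine ⟨a, Finset.mem_insert_self a s, ?_⟩
      refine Fermat.Agent.H77.esg_eq_zero_of_mul_eq_zero (hf a) hmd (fun z => ?_) h0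
      have := h z
      rwa [Finset.prod_insert ha] at this

theorem ecn_expGrowth_of_bound {f : ℍ → ℂ} (H : ∃ (M : ℕ) (C Y : ℝ), ∀ z : ℍ, Y ≤ z.im →
    ‖f z‖ ≤ C * Real.exp (2 * Real.pi * M * z.im)) : Fermat.Agent.H85.ExpGrowth f := by
  obtain ⟨M, C, Y, hb⟩ := H
  refine ⟨M, max C 0, Y, le_max_right _ _, fun z hz => (hb z hz).trans ?_⟩
  exact mul_le_mul_of_nonneg_right (le_max_left _ _) (Real.exp_pos _).le

/-! ### The main argument -/

theorem ecn_coe_aeval (N ℓ : ℕ) [NeZero N] [NeZero ℓ] (R : (↥(FC N))[X]) (h : ↥(FC (N * ℓ))) :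
    letI := algebraAlong (heckeAlphaBar ℂ N ℓ)
    ((aeval h R : ↥(FC (N * ℓ))) : LaurentSeries ℂ)
      = R.eval₂ (algebraMap ↥(FC N) (LaurentSeries ℂ)) (h : LaurentSeries ℂ) := by
  letI := algebraAlong (heckeAlphaBar ℂ N ℓ)
  have h1 := Polynomial.hom_eval₂ R (algebraMap ↥(FC N) ↥(FC (N * ℓ)))
    (algebraMap ↥(FC (N * ℓ)) (LaurentSeries ℂ)) h
  have h2 : (algebraMap ↥(FC (N * ℓ)) (LaurentSeries ℂ)).comp
      (algebraMap ↥(FC N) ↥(FC (N * ℓ))) = algebraMap ↥(FC N) (LaurentSeries ℂ) := by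
    ext r
    rfl
  rw [h2] at h1
  rw [aeval_def]
  exact h1

set_option synthInstance.maxHeartbeats 400000 in
set_option maxHeartbeats 1600000 in
/-- **C2-NORM**, with the inputs from ES-A as hypotheses. -/
theorem ecn_normRep_core (N : ℕ) [NeZero N]
    (hReg : RepRegularStatement N) (hHol : HolModularStatement N)
    (hfrac : ∀ f : ↥(FC N), ∃ s ∈ ecnA N, s ≠ 0 ∧ f * s ∈ ecnA N)
    (ℓ : ℕ) [NeZero ℓ] (hℓ : ℓ.Prime) (hℓN : ¬ ℓ ∣ N)
    (hdeg : finrankAlong ℂ (heckeAlphaBar ℂ N ℓ) = ℓ + 1)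
    (f : ↥(FC N)) (F : ℍ → ℂ) (hFrep : Rep N F f) :
    Rep N (heckeProd ℓ F)
      (letI := algebraAlong (heckeAlphaBar ℂ N ℓ)
       Algebra.norm ↥(FC N) (heckeBetaBar ℂ N ℓ f)) := by
  classical
  haveI : Fact ℓ.Prime := ⟨hℓ⟩
  letI : Algebra ↥(FC N) ↥(FC (N * ℓ)) := algebraAlong (heckeAlphaBar ℂ N ℓ)
  have hfin : Module.finrank ↥(FC N) ↥(FC (N * ℓ)) = ℓ + 1 := hdeg
  haveI : FiniteDimensional ↥(FC N) ↥(FC (N * ℓ)) :=
    Module.finite_of_finrank_pos (by rw [hfin]; omega)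
  -- `F` is invariant, holomorphic, of exponential growth
  obtain ⟨hFinv, hFgr⟩ := hReg f F hFrep
  have hFmd : MDiff F := hFrep.mdifferentiable
  have hFGr : EcnGr F := ⟨hFmd, fun γ => ecn_expGrowth_of_bound (hFgr γ)⟩
  -- the lift `Θ`
  obtain ⟨Θ, hΘ⟩ := ecn_exists_theta N
  have hΘmd : ∀ r, MDiff (Θ r) := fun r => (hΘ r).mdifferentiable
  have hΘinv : ∀ (r : ↥(ecnA N)), ∀ γ ∈ Gamma0 N, ∀ z : ℍ, Θ r (γ • z) = Θ r z :=
    fun r => (hReg r.1 (Θ r) (hΘ r)).1
  have hΘ0 : ∀ r : ↥(ecnA N), Θ r = 0 → r = 0 := by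
    intro r hr
    have h1 := hΘ r
    rw [hr] at h1
    have h2 := h1.unique_right laurentRel_zero
    apply Subtype.ext
    apply Subtype.ext
    exact h2
  -- the coefficients of the polynomial of translates are in the range of `Θ`
  have hlift : ecnPoly ℓ F ∈ lifts Θ := by
    rw [lifts_iff_coeff_lifts]
    intro k
    have hk := ecnPoly_coeff_gr (ℓ := ℓ) hFGr k
    obtain ⟨c, hc⟩ := hHol _ hk.1
      (fun γ hγ z => ecnPoly_coeff_invariant hℓN hFinv k γ hγ z)
      (fun γ => by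
        obtain ⟨M, C, Y, -, hb⟩ := hk.2 γ
        exact ⟨M, C, Y, hb⟩)
    exact ⟨⟨c, _, hc⟩, (hΘ ⟨c, _, hc⟩).unique_left hc⟩
  obtain ⟨PA, hPA, hPAdeg, hPAmonic⟩ :=
    lifts_and_natDegree_eq_and_monic hlift (ecnPoly_monic ℓ F)
  set P₀ : (↥(FC N))[X] := PA.map (ecnA N).subtype with hP₀
  have hP₀monic : P₀.Monic := hPAmonic.map _
  have hP₀deg : P₀.natDegree = ℓ + 1 := by
    rw [hP₀, hPAmonic.natDegree_map, hPAdeg, ecnPoly_natDegree]
  set h : ↥(FC (N * ℓ)) := heckeBetaBar ℂ N ℓ f with hh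
  -- `G_∞` represents `h`
  have hGinf : LaurentRel (ecnG ℓ F ∞) (h : LaurentSeries ℂ) := by
    rw [ecn_G_infty]
    exact LaurentRel.scale hFrep ℓ
  -- every nonconstant monic factor vanishes at `h`
  have key : ∀ R W : (↥(FC N))[X], P₀ = R * W → R.Monic → 0 < R.natDegree →
      aeval h R = 0 := by
    intro R W hRW hRm hRd
    obtain ⟨b, R', hb, hR'⟩ := ecn_exists_clear_denominators (ecnA N) hfrac R
    obtain ⟨c, W', hc, hW'⟩ := ecn_exists_clear_denominators (ecnA N) hfrac W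
    have hb0 : b ≠ 0 := fun h0 => hb (by rw [h0]; rfl)
    have hc0 : c ≠ 0 := fun h0 => hc (by rw [h0]; rfl)
    have hid : C (b * c) * PA = R' * W' := by
      apply Polynomial.map_injective (ecnA N).subtype Subtype.val_injective
      rw [Polynomial.map_mul, Polynomial.map_mul, hR', hW', map_C, ← hP₀, hRW]
      simp only [Subring.coe_subtype, Subring.coe_mul, C_mul]
      ring
    have hidF : C (Θ (b * c)) * ecnPoly ℓ F = R'.map Θ * W'.map Θ := by
      have := congrArg (Polynomial.map Θ) hid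
      rwa [Polynomial.map_mul, Polynomial.map_mul, map_C, hPA] at this
    -- leading coefficient of `R'`
    have hlead : R'.coeff R.natDegree = b := by
      apply Subtype.ext
      have := congrArg (fun P => P.coeff R.natDegree) hR'
      simp only [coeff_map, coeff_C_mul, Subring.coe_subtype] at this
      rw [this, hRm.coeff_natDegree, mul_one]
    -- pointwise roots
    have hpt : ∀ z : ℍ, (∏ x : OnePoint (ZMod ℓ), (R'.eval₂ Θ (ecnG ℓ F x)) z)
        * (Θ b z * Θ c z) = 0 := by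
      intro z
      by_cases hbz : Θ b z = 0
      · rw [hbz, zero_mul, mul_zero]
      by_cases hcz : Θ c z = 0
      · rw [hcz, mul_zero, mul_zero]
      set ez : ↥(ecnA N) →+* ℂ := (Pi.evalRingHom (fun _ : ℍ => ℂ) z).comp Θ with hez
      have hdegR' : (R'.map ez).degree ≠ 0 := by
        have h1 : (R'.map ez).coeff R.natDegree ≠ 0 := by
          rw [coeff_map, hlead]
          exact hbz
        have h2 := Polynomial.le_degree_of_ne_zero h1
        intro h3
        rw [h3] at h2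
        have : (R.natDegree : WithBot ℕ) ≤ 0 := h2
        have h4 : R.natDegree ≤ 0 := by exact_mod_cast this
        omega
      obtain ⟨y, hy⟩ := IsAlgClosed.exists_root (R'.map ez) hdegR'
      have hz := congrArg (fun P => (P.map (Pi.evalRingHom (fun _ : ℍ => ℂ) z)).eval y) hidF
      simp only [Polynomial.map_mul, Polynomial.map_map, eval_mul, map_C, eval_C] at hz
      rw [← hez] at hz
      have hy' : (R'.map ez).eval y = 0 := hy
      rw [hy', zero_mul] at hz
      have hprod : ((ecnPoly ℓ F).map (Pi.evalRingHom (fun _ : ℍ => ℂ) z)).eval y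
          = ∏ x : OnePoint (ZMod ℓ), (y - ecnG ℓ F x z) := by
        unfold ecnPoly
        rw [Polynomial.map_prod, eval_prod]
        refine Finset.prod_congr rfl fun x _ => ?_
        simp
      rw [hprod] at hz
      have hbc : (Pi.evalRingHom (fun _ : ℍ => ℂ) z) (Θ (b * c)) ≠ 0 := by
        rw [map_mul]
        exact mul_ne_zero hbz hcz
      have h5 := (mul_eq_zero.mp hz).resolve_left hbc
      obtain ⟨x, -, hx⟩ := Finset.prod_eq_zero_iff.mp h5
      have hx' : y = ecnG ℓ F x z := sub_eq_zero.mp hx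
      have : (R'.eval₂ Θ (ecnG ℓ F x)) z = 0 := by
        rw [ecn_eval₂_apply, ← hx']
        exact hy
      rw [Finset.prod_eq_zero (Finset.mem_univ x) this, zero_mul]
    -- identity theorem
    have hbcne : (fun z : ℍ => Θ b z * Θ c z) ≠ 0 := by
      intro h0
      have : Θ (b * c) = 0 := by
        rw [map_mul]
        exact h0
      exact mul_ne_zero hb0 hc0 (hΘ0 _ this)
    have hprod0 : (fun z : ℍ => ∏ x : OnePoint (ZMod ℓ), (R'.eval₂ Θ (ecnG ℓ F x)) z) = 0 :=
      Fermat.Agent.H77.esg_eq_zero_of_mul_eq_zero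
        (ecn_mdiff_prod _ _ fun x => ecn_mdiff_eval₂ Θ hΘmd (ecn_mdiff_G hFmd x) R')
        ((hΘmd b).mul (hΘmd c)) hpt hbcne
    obtain ⟨x, -, hx⟩ := ecn_exists_eq_zero_of_prod Finset.univ
      (fun x => R'.eval₂ Θ (ecnG ℓ F x))
      (fun x => ecn_mdiff_eval₂ Θ hΘmd (ecn_mdiff_G hFmd x) R') (fun z => congrFun hprod0 z)
    -- transitivity
    obtain ⟨g, hg, hgx⟩ := ecn_transitive N ℓ hℓN x
    have hinf : R'.eval₂ Θ (ecnG ℓ F ∞) = 0 := by
      funext w
      have hw : w = g • (g⁻¹ • w) := by rw [smul_smul, mul_inv_cancel, one_smul]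
      rw [hw, ecn_eval₂_apply, ecn_G_smul_of_invariant hℓN hFinv g hg ∞ (g⁻¹ • w), hgx]
      have hring : (Pi.evalRingHom (fun _ : ℍ => ℂ) (g • (g⁻¹ • w))).comp Θ
          = (Pi.evalRingHom (fun _ : ℍ => ℂ) (g⁻¹ • w)).comp Θ := by
        ext r
        exact hΘinv r g hg (g⁻¹ • w)
      rw [hring, ← ecn_eval₂_apply, hx]
      rfl
    -- back to Laurent series
    have hrel := ecn_laurentRel_eval₂ Θ (ecnPhi N) hΘ hGinf R'
    rw [hinf] at hrel
    have hzero : R'.eval₂ (ecnPhi N) (h : LaurentSeries ℂ) = 0 :=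
      hrel.unique_right laurentRel_zero
    have h6 : R'.eval₂ (ecnPhi N) (h : LaurentSeries ℂ)
        = ((b : ↥(FC N)) : LaurentSeries ℂ)
          * R.eval₂ (algebraMap ↥(FC N) (LaurentSeries ℂ)) (h : LaurentSeries ℂ) := by
      have := Polynomial.eval₂_map (p := R') (ecnA N).subtype
        (algebraMap ↥(FC N) (LaurentSeries ℂ)) (h : LaurentSeries ℂ)
      rw [hR', eval₂_mul, eval₂_C] at this
      exact this.symm
    rw [h6] at hzero
    have hbL : (((b : ↥(FC N)) : LaurentSeries ℂ)) ≠ 0 := by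
      intro h0
      exact hb (Subtype.ext h0)
    have h7 := (mul_eq_zero.mp hzero).resolve_left hbL
    apply Subtype.ext
    rw [ecn_coe_aeval N ℓ R h, h7]
    rfl
  obtain ⟨a, ha⟩ := ecn_eq_minpoly_pow h (Algebra.IsIntegral.isIntegral h) P₀ hP₀monic key
  have hnorm := ecn_norm_eq_of_minpoly_pow h P₀ a ha (by rw [hP₀deg, hfin])
  rw [hfin] at hnorm
  -- conclusion
  have hc0 : Θ (PA.coeff 0) = (-1) ^ (ℓ + 1) * heckeProd ℓ F := by
    rw [← ecnPoly_coeff_zero, ← hPA, coeff_map]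
  have hΘn : Θ ((-1) ^ (ℓ + 1) * PA.coeff 0) = heckeProd ℓ F := by
    rw [map_mul, map_pow, map_neg, map_one, hc0, ← mul_assoc, ← pow_add, ← two_mul,
      pow_mul, neg_one_sq, one_pow, one_mul]
  have hfinal := hΘ ((-1) ^ (ℓ + 1) * PA.coeff 0)
  rw [hΘn] at hfinal
  have hval : ecnPhi N ((-1) ^ (ℓ + 1) * PA.coeff 0)
      = ((Algebra.norm ↥(FC N) h : ↥(FC N)) : LaurentSeries ℂ) := by
    rw [hnorm, hP₀, coeff_map]
    rfl
  rw [hval] at hfinal
  exact hfinal

/-- **C2-NORM** (`Fermat.Agent.H21.EsC.NormRepStatement`) from the ES-A statements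
CORE-C, REP, REP-REG, HOL and the degree of `α` (C1-DEG). -/
theorem ecn_normRep (N : ℕ) [NeZero N] (hCore : CoreCStatement N)
    (hRepS : RsubRepStatement N) (hReg : RepRegularStatement N)
    (hHol : HolModularStatement N) (hDeg : DegreeAlphaStatement ℂ) :
    NormRepStatement N := by
  intro ℓ _ hℓ hℓN f F _ hF
  refine ecn_normRep_core N hReg hHol ?_ ℓ hℓ hℓN (hDeg N ℓ hℓ hℓN) f F hF
  intro x
  obtain ⟨r, s, hr, hs, hs0, hrs⟩ := hCore.2 x
  obtain ⟨h1, hh1, -⟩ := hRepS r hr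
  obtain ⟨h2, hh2, -⟩ := hRepS s hs
  exact ⟨s, ⟨h2, hh2⟩, hs0, by rw [hrs]; exact ⟨h1, hh1⟩⟩

end Fermat.Agent.H82

end
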