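/-
P-ES / ES-C2-NORM (helper82): the unconditional `NormRepStatement`, obtained from
`Fermat.Agent.H82.ecn_normRep` and the landed ES-A / ES-C1 leaves
(CORE-C, REP: helper13; REP-REG: helper77; HOL: helper32; DEG-C: helper69; C1-DEG: helper65).
-/
import Fermat.Agent.H82.EsCNorm
import Fermat.Agent.H13.EsACoreC
import Fermat.Agent.H32.EsAMF
import Fermat.Agent.H69.DegreeC
import Fermat.Agent.H65.EsC.DegreeAlphaFinal

set_option autoImplicit false

namespace Fermat.Agent.H82

/-- **C2-NORM** (unconditional): if the holomorphic function `F` represents `f ∈ FC N`, then the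
product of its Hecke translates represents the norm of `β f` along `α`. -/
theorem normRepStatement (N : ℕ) [NeZero N] : Fermat.Agent.H21.EsC.NormRepStatement N :=
  ecn_normRep N (Fermat.Agent.H13.esaCoreC N) (Fermat.Agent.H13.esaRsubRep N)
    (Fermat.Agent.H77.esg_repRegularStatement N (Fermat.Agent.H13.esaCoreC N)
      (Fermat.Agent.H13.esaRsubRep N))
    (Fermat.Agent.H32.holModular N (Fermat.Agent.H13.esaCoreC N)
      (Fermat.Agent.H13.esaRsubRep N) (Fermat.Agent.H69.DegC.degreeC N))
    Fermat.Agent.H65.degreeAlphaStatement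

end Fermat.Agent.H82
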