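import Fermat.Agent.H78.ResidDefs
import Fermat.Agent.H99.Burnside

/-!
# RESID-gauge: existence of a gauge adapted to an absolutely irreducible residual representation
-/

set_option autoImplicit false

noncomputable section

namespace Fermat.Agent.H82

open IsLocalRing Matrix Fermat.Agent.H78

/-- An absolutely irreducible two-dimensional representation has non-commuting image. -/
lemma exists_not_commute {k : Type} [Field k] (ρbar : ResidualGaloisRep k)
    (habs : ρbar.IsAbsolutelyIrreducible) :
    ∃ ga gb : GalQ, ρbar.ρ ga * ρbar.ρ gb ≠ ρbar.ρ gb * ρbar.ρ ga := by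
  by_contra hcon
  push Not at hcon
  have hspan := Fermat.Agent.H99.burnside k ρbar habs
  -- every element of the span commutes with every `ρ g`
  have h1 : ∀ x : Module.End k ρbar.V, ∀ g : GalQ, x * ρbar.ρ g = ρbar.ρ g * x := by
    intro x g
    have hx : x ∈ Submodule.span k (Set.range ρbar.ρ) := by rw [hspan]; trivial
    induction hx using Submodule.span_induction with
    | mem y hy =>
      obtain ⟨a, rfl⟩ := hy
      exact hcon a g
    | zero => simp
    | add y z _ _ hy hz => rw [add_mul, mul_add, hy, hz]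
    | smul c y _ hy => rw [smul_mul_assoc, mul_smul_comm, hy]
  have h2 : ∀ x y : Module.End k ρbar.V, x * y = y * x := by
    intro x y
    have hy : y ∈ Submodule.span k (Set.range ρbar.ρ) := by rw [hspan]; trivial
    induction hy using Submodule.span_induction with
    | mem z hz =>
      obtain ⟨a, rfl⟩ := hz
      exact h1 x a
    | zero => simp
    | add y z _ _ hy hz => rw [add_mul, mul_add, hy, hz]
    | smul c y _ hy => rw [smul_mul_assoc, mul_smul_comm, hy]
  -- but `End k V` is not commutative in dimension 2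
  let b : Module.Basis (Fin 2) k ρbar.V := Module.finBasisOfFinrankEq k ρbar.V ρbar.finrank_eq
  let e := LinearMap.toMatrixAlgEquiv b
  have h3 : ∀ X Y : Matrix (Fin 2) (Fin 2) k, X * Y = Y * X := by
    intro X Y
    have := h2 (e.symm X) (e.symm Y)
    rw [← map_mul, ← map_mul] at this
    exact e.symm.injective this
  have := h3 !![0, 1; 0, 0] !![0, 0; 1, 0]
  have h4 := congrFun (congrFun this 0) 0
  simp at h4

/-- A non-central endomorphism of a two-dimensional space has a cyclic vector. -/
lemma exists_cyclic_vector {k V : Type} [Field k] [AddCommGroup V] [Module k V]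
    (hV : Module.finrank k V = 2) (N B : Module.End k V) (hNB : N * B ≠ B * N) :
    ∃ v : V, LinearIndependent k ![v, N v] := by
  have : Module.Finite k V := Module.finite_of_finrank_eq_succ hV
  by_contra hcon
  push Not at hcon
  have key : ∀ v : V, v ≠ 0 → ∃ a : k, a • v = N v := by
    intro v hv
    by_contra h
    push Not at h
    exact hcon v ((LinearIndependent.pair_iff' hv).mpr h)
  let b : Module.Basis (Fin 2) k V := Module.finBasisOfFinrankEq k V hV
  have hb0 : b 0 ≠ 0 := b.ne_zero 0
  have hb1 : b 1 ≠ 0 := b.ne_zero 1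
  have hli : LinearIndependent k ![b 0, b 1] := by
    have := b.linearIndependent
    convert this using 1
    ext i
    fin_cases i <;> rfl
  have hb01 : b 0 + b 1 ≠ 0 := by
    intro h
    have := (LinearIndependent.pair_iff.mp hli) 1 1 (by simpa using h)
    exact one_ne_zero this.1
  obtain ⟨a₀, h₀⟩ := key _ hb0
  obtain ⟨a₁, h₁⟩ := key _ hb1
  obtain ⟨a, ha⟩ := key _ hb01
  have hrel : (a - a₀) • b 0 + (a - a₁) • b 1 = 0 := by
    have : a • (b 0 + b 1) = a₀ • b 0 + a₁ • b 1 := by
      rw [ha, map_add, h₀, h₁]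
    rw [sub_smul, sub_smul]
    rw [smul_add] at this
    rw [sub_add_sub_comm, this, sub_self]
  obtain ⟨e0, e1⟩ := (LinearIndependent.pair_iff.mp hli) _ _ hrel
  have ea0 : a₀ = a := (sub_eq_zero.mp e0).symm
  have ea1 : a₁ = a := (sub_eq_zero.mp e1).symm
  have hN : N = a • (1 : Module.End k V) := by
    apply b.ext
    intro i
    fin_cases i
    · simp [← h₀, ea0]
    · simp [← h₁, ea1]
  apply hNB
  rw [hN, smul_mul_assoc, mul_smul_comm, one_mul, mul_one]

variable {𝒪 : Type} [CommRing 𝒪] [IsDomain 𝒪] [IsDiscreteValuationRing 𝒪]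
  [IsAdicComplete (maximalIdeal 𝒪) 𝒪] [Finite (ResidueField 𝒪)]

open Classical in
theorem exists_gauge (ρbar : ResidualGaloisRep (ResidueField 𝒪))
    (habs : ρbar.IsAbsolutelyIrreducible) :
    ∃ (G : Gauge 𝒪) (β : Module.Basis (Fin 2) (ResidueField 𝒪) ρbar.V), G.IsFor ρbar β := by
  obtain ⟨ga, gb, hne⟩ := exists_not_commute ρbar habs
  obtain ⟨v, hv⟩ := exists_cyclic_vector ρbar.finrank_eq (ρbar.ρ ga) (ρbar.ρ gb) hne
  let β : Module.Basis (Fin 2) (ResidueField 𝒪) ρbar.V :=
    basisOfLinearIndependentOfCardEqFinrank hv (by simp [ρbar.finrank_eq])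
  have hβ : ∀ i, β i = ![v, ρbar.ρ ga v] i := fun i => by
    simp [β, coe_basisOfLinearIndependentOfCardEqFinrank]
  have hβ0 : β 0 = v := by simpa using hβ 0
  have hβ1 : β 1 = ρbar.ρ ga v := by simpa using hβ 1
  let Mat : GalQ → M2 (ResidueField 𝒪) := fun σ => LinearMap.toMatrix β β (ρbar.ρ σ)
  have hcol : ∀ a, Mat ga a 0 = if a = 1 then 1 else 0 := by
    intro a
    simp only [Mat, LinearMap.toMatrix_apply, hβ0, ← hβ1, Module.Basis.repr_self,
      Finsupp.single_apply]
    simp [eq_comm]
  have hcol0 : Mat ga 0 0 = 0 := by simpa using hcol 0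
  have hcol1 : Mat ga 1 0 = 1 := by simpa using hcol 1
  have hcomm : Mat ga * Mat gb - Mat gb * Mat ga ≠ 0 := by
    intro h
    apply hne
    have h' : Mat ga * Mat gb = Mat gb * Mat ga := sub_eq_zero.mp h
    simp only [Mat, ← LinearMap.toMatrix_mul] at h'
    exact (LinearMap.toMatrix β β).injective h'
  obtain ⟨i, j, hij⟩ : ∃ i j, (Mat ga * Mat gb - Mat gb * Mat ga) i j ≠ 0 := by
    by_contra hcon
    push Not at hcon
    exact hcomm (Matrix.ext hcon)
  obtain ⟨lift, hres, hl0, hl1⟩ : ∃ lift : GalQ → M2 𝒪,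
      (∀ σ a b, residue 𝒪 (lift σ a b) = Mat σ a b) ∧ lift ga 0 0 = 0 ∧ lift ga 1 0 = 1 := by
    refine ⟨fun σ => Matrix.of fun a b =>
      if σ = ga ∧ b = 0 then (if a = 0 then 0 else 1)
      else Function.surjInv (IsLocalRing.residue_surjective (R := 𝒪)) (Mat σ a b), ?_, ?_, ?_⟩
    · intro σ a b
      simp only [Matrix.of_apply]
      split_ifs with h1 h2
      · obtain ⟨rfl, rfl⟩ := h1
        rw [h2, map_zero, hcol0]
      · obtain ⟨rfl, rfl⟩ := h1
        have ha : a = 1 := by
          fin_cases a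
          · exact absurd rfl h2
          · rfl
        rw [ha, map_one, hcol1]
      · exact Function.surjInv_eq (IsLocalRing.residue_surjective (R := 𝒪)) _
    · simp
    · simp
  have hmap : ∀ σ, (residue 𝒪).mapMatrix (lift σ) = Mat σ := by
    intro σ
    ext a b
    simp only [RingHom.mapMatrix_apply, Matrix.map_apply]
    exact hres σ a b
  refine ⟨{ lift := lift, ga := ga, gb := gb, i := i, j := j, ga_col0 := hl0, ga_col1 := hl1,
            comm_unit := ?_ }, β, hres⟩
  rw [← IsLocalRing.notMem_maximalIdeal, ← IsLocalRing.residue_eq_zero_iff]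
  have h1 : residue 𝒪 ((lift ga * lift gb - lift gb * lift ga) i j) =
      ((residue 𝒪).mapMatrix (lift ga * lift gb - lift gb * lift ga)) i j := rfl
  rw [h1, map_sub, map_mul, map_mul, hmap, hmap]
  exact hij

end Fermat.Agent.H82
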