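import Mathlib
import Fermat.Agent.H63.S16LB.Interfaces

/-!
# S16 lower bound, LB-PERIOD (second attempt, helper82): conjugation by `diag(1,-1)`

Rewriting data `(σ, κ)` of `γ` for a family `α` which is stable under conjugation by
`J = diag(1,-1)` up to left multiplication by elements of `Γ₀(N)` give rewriting data of
`jConjGamma0 N γ`.
-/

set_option autoImplicit false

namespace Fermat.Agent.H82

open CongruenceSubgroup ModularCurve ModularCurve.Period Matrix.SpecialLinearGroup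
open scoped MatrixGroups

open P2MW.S_ModularForm_heckeT_slash_eq_self_of_mem_Gamma0.ModularForm.HeckeSlashInvariance

/-- The matrix `diag(1,-1)`. -/
noncomputable def spJ : GL (Fin 2) ℝ :=
  Matrix.GeneralLinearGroup.mkOfDetNeZero !![(1 : ℝ), 0; 0, -1] (by simp)

theorem spJ_val : (spJ : Matrix (Fin 2) (Fin 2) ℝ) = !![(1 : ℝ), 0; 0, -1] := rfl

theorem spJ_mul_self : spJ * spJ = 1 := by
  ext i j
  fin_cases i <;> fin_cases j <;> simp [spJ_val, Matrix.mul_apply, Fin.sum_univ_two]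

/-- Conjugation by `diag(1,-1)`. -/
noncomputable def spConj (g : GL (Fin 2) ℝ) : GL (Fin 2) ℝ := spJ * g * spJ

theorem spConj_mul (a b : GL (Fin 2) ℝ) : spConj (a * b) = spConj a * spConj b := by
  unfold spConj
  calc spJ * (a * b) * spJ = spJ * a * (1 : GL (Fin 2) ℝ) * b * spJ := by group
    _ = spJ * a * (spJ * spJ) * b * spJ := by rw [spJ_mul_self]
    _ = spJ * a * spJ * (spJ * b * spJ) := by group

theorem spConj_apply (g : GL (Fin 2) ℝ) (i j : Fin 2) :
    (spConj g : Matrix (Fin 2) (Fin 2) ℝ) i j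
      = (!![g 0 0, -g 0 1; -g 1 0, g 1 1] : Matrix (Fin 2) (Fin 2) ℝ) i j := by
  unfold spConj
  fin_cases i <;> fin_cases j <;>
    simp [spJ_val, Matrix.mul_apply, Fin.sum_univ_two, Matrix.vecMul, dotProduct]

theorem spConj_mapGL (g : SL(2, ℤ)) : spConj (mapGL ℝ g) = mapGL ℝ (jConjSL g) := by
  ext i j
  rw [spConj_apply]
  fin_cases i <;> fin_cases j <;> simp [jConjMat]

/-- Rewriting data for `jConjGamma0 N γ` from rewriting data for `γ`. -/
theorem sp_isRewriting_jConj {N : ℕ} {X : Type} (α : X → GL (Fin 2) ℝ) (γ : Gamma0 N)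
    (σ : Equiv.Perm X) (κ : X → Gamma0 N) (h : Fermat.Agent.H63.IsRewriting N α γ σ κ)
    (τ : Equiv.Perm X) (u : X → Gamma0 N)
    (hu : ∀ x, spConj (α x) = mapGL ℝ ((u x : Gamma0 N) : SL(2, ℤ)) * α (τ x)) :
    Fermat.Agent.H63.IsRewriting N α (jConjGamma0 N γ) (τ.symm.trans (σ.trans τ))
      (fun y => (u (τ.symm y))⁻¹ * jConjGamma0 N (κ (τ.symm y)) * u (σ (τ.symm y))) := by
  intro y
  obtain ⟨x, rfl⟩ := τ.surjective y
  have hy : τ.symm (τ x) = x := Equiv.symm_apply_apply τ x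
  simp only [hy]
  have h1 : α (τ x) = (mapGL ℝ ((u x : Gamma0 N) : SL(2, ℤ)))⁻¹ * spConj (α x) := by
    rw [hu x]; group
  have h2 : spConj (α x) * mapGL ℝ ((jConjGamma0 N γ : Gamma0 N) : SL(2, ℤ))
      = mapGL ℝ (((jConjGamma0 N (κ x) : Gamma0 N)) : SL(2, ℤ)) * spConj (α (σ x)) := by
    rw [jConjGamma0_coe, jConjGamma0_coe, ← spConj_mapGL, ← spConj_mapGL, ← spConj_mul,
      ← spConj_mul, h x]
  have h3 : (τ.symm.trans (σ.trans τ)) (τ x) = τ (σ x) := by
    simp only [Equiv.trans_apply, hy]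
  rw [h3, h1, mul_assoc, h2, hu (σ x)]
  simp only [Subgroup.coe_mul, Subgroup.coe_inv, map_mul, map_inv]
  group

end Fermat.Agent.H82
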