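import Mathlib
import Fermat.Agent.H63.S16LB.Interfaces
import Fermat.Agent.H63.S21A
import Fermat.Agent.H31.PeriodBasic

/-!
# S16 lower bound, LB-PERIOD (second attempt, helper82): the analytic core

If `F` is a primitive of `f` on the upper half plane and `α x` are matrices of positive
determinant, then `∑ x, F ∘ (α x • ·)` is a primitive of `∑ x, f ∣[2] α x`.  Two primitives of the
same function differ by a constant, so the periods of `T f` are obtained from those of `f`
by the transfer formula; no limit at any cusp is needed.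
-/

set_option autoImplicit false

namespace Fermat.Agent.H82

open Filter Topology Complex Function CongruenceSubgroup ModularCurve ModularCurve.Period
open UpperHalfPlane hiding I
open scoped MatrixGroups ModularForm Manifold Real

/-- Chain rule for the Möbius action of a matrix of positive determinant:
if `F' = f` then `(F ∘ g)' = f ∣[2] g`. -/
theorem sp_hasDerivAt_comp_glsmul (F f : ℍ → ℂ)
    (hF : ∀ τ : ℍ, HasDerivAt (F ∘ ofComplex) (f τ) ↑τ) (g : GL (Fin 2) ℝ)
    (hg : 0 < g.det.val) (τ : ℍ) :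
    HasDerivAt ((fun w : ℍ => F (g • w)) ∘ ofComplex) ((f ∣[(2 : ℤ)] g) τ) ↑τ := by
  have hdet : 0 < (g.val).det := by
    rw [← Matrix.GeneralLinearGroup.val_det_apply]; exact hg
  have h1 : HasDerivAt (fun z : ℂ => ((g • ofComplex z : ℍ) : ℂ))
      (((g.val).det : ℂ) / denom g τ ^ 2) τ :=
    (hasStrictDerivAt_smul hdet τ).hasDerivAt
  have h2 : HasDerivAt (F ∘ ofComplex) (f (g • τ)) ((g • τ : ℍ) : ℂ) := hF (g • τ)
  have h2' : HasDerivAt (F ∘ ofComplex) (f (g • τ)) ((g • ofComplex (τ : ℂ) : ℍ) : ℂ) := by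
    rw [ofComplex_apply]
    exact h2
  have h3 := h2'.comp (τ : ℂ) h1
  have hfun : ((F ∘ ofComplex) ∘ fun z : ℂ => ((g • ofComplex z : ℍ) : ℂ))
      = ((fun w : ℍ => F (g • w)) ∘ ofComplex) := by
    funext z
    simp only [comp_apply, ofComplex_apply]
  rw [hfun] at h3
  have hval : f (g • τ) * (((g.val).det : ℂ) / denom g τ ^ 2) = (f ∣[(2 : ℤ)] g) τ := by
    rw [ModularForm.slash_apply, UpperHalfPlane.σ, if_pos hg]
    have hne : denom g τ ≠ 0 := denom_ne_zero _ τ
    have habs : |g.det.val| = (g.val).det := by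
      rw [abs_of_pos hg, Matrix.GeneralLinearGroup.val_det_apply]
    rw [habs, zpow_neg]
    simp only [ContinuousAlgEquiv.refl_apply]
    norm_num
    field_simp
  rw [hval] at h3
  exact h3

/-- The period of `T f` along `γ` is the transfer sum of the periods of `f`, for any finite
family `α` of matrices of positive determinant with `T f = ∑ x, f ∣[2] α x` and any
rewriting data `(σ, κ)` of `γ`. -/
theorem sp_periodMap_transfer {N : ℕ} [NeZero N] {X : Type} [Fintype X]
    (α : X → GL (Fin 2) ℝ) (hα : ∀ x, 0 < (α x).det.val)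
    (f Tf : CuspForm (Gamma0 N) 2)
    (hT : ∀ τ : ℍ, Tf τ = ∑ x, ((f : ℍ → ℂ) ∣[(2 : ℤ)] α x) τ)
    (γ : Gamma0 N) (σ : Equiv.Perm X) (κ : X → Gamma0 N)
    (h : Fermat.Agent.H63.IsRewriting N α γ σ κ) :
    periodMap N Tf (Additive.ofMul γ) = ∑ x, periodMap N f (Additive.ofMul (κ x)) := by
  obtain ⟨F, hF⟩ := Fermat.Agent.H63.exists_hasEquivariantPrimitive N f
  obtain ⟨FT, hFT⟩ := Fermat.Agent.H63.exists_hasEquivariantPrimitive N Tf
  -- the transfer primitive
  set G : ℍ → ℂ := fun w => ∑ x, F (α x • w) with hG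
  have hGder : ∀ τ : ℍ, HasDerivAt (G ∘ ofComplex) (Tf τ) ↑τ := by
    intro τ
    have h1 : HasDerivAt (fun z : ℂ => ∑ x, ((fun w : ℍ => F (α x • w)) ∘ ofComplex) z)
        (∑ x, ((f : ℍ → ℂ) ∣[(2 : ℤ)] α x) τ) ↑τ :=
      HasDerivAt.fun_sum fun x _ => sp_hasDerivAt_comp_glsmul F f hF.1 (α x) (hα x) τ
    rw [← hT τ] at h1
    exact h1
  -- `FT - G` is constant
  have hconst : ∀ z w : ℍ, FT z - G z = FT w - G w := by
    have hD : ∀ τ : ℍ, HasDerivAt ((fun z => FT z - G z) ∘ ofComplex) 0 (τ : ℂ) := by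
      intro τ
      have := (hFT.1 τ).fun_sub (hGder τ)
      simpa [Function.comp_def] using this
    exact Fermat.Agent.H31.const_of_hasDerivAt_zero hD
  have hper : periodMap N Tf (Additive.ofMul γ)
      = G ((γ : SL(2, ℤ)) • UpperHalfPlane.I) - G UpperHalfPlane.I := by
    rw [Fermat.Agent.H31.periodMap_apply_of_hasEquivariantPrimitive hFT γ]
    have := hconst ((γ : SL(2, ℤ)) • UpperHalfPlane.I) UpperHalfPlane.I
    linear_combination this
  rw [hper]
  -- rewrite each term
  have hterm : ∀ x, F (α x • ((γ : SL(2, ℤ)) • UpperHalfPlane.I))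
      = F (α (σ x) • UpperHalfPlane.I) + periodMap N f (Additive.ofMul (κ x)) := by
    intro x
    have e1 : α x • ((γ : SL(2, ℤ)) • UpperHalfPlane.I)
        = ((κ x : Gamma0 N) : SL(2, ℤ)) • (α (σ x) • UpperHalfPlane.I) := by
      rw [ModularGroup.sl_moeb, ModularGroup.sl_moeb, ← mul_smul, ← mul_smul]
      congr 1
      exact h x
    rw [e1, Fermat.Agent.H31.periodMap_apply_of_hasEquivariantPrimitive' hF (κ x)
      (α (σ x) • UpperHalfPlane.I)]
    ring
  simp only [hG]
  rw [Finset.sum_congr rfl fun x _ => hterm x, Finset.sum_add_distrib,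
    Equiv.sum_comp σ (fun x => F (α x • UpperHalfPlane.I))]
  ring

end Fermat.Agent.H82
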