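import Mathlib
import Fermat.Agent.H82.S16PeriodCore
import Fermat.Agent.H82.S16PeriodConj

/-!
# S16 lower bound, LB-PERIOD (second attempt, helper82): `HeckePeriodStatement N`

Hecke operators act on period classes by the transfer formula.
-/

set_option autoImplicit false

namespace Fermat.Agent.H82

open Filter Topology Complex Function CongruenceSubgroup ModularCurve ModularCurve.Period
open Matrix.SpecialLinearGroup
open UpperHalfPlane hiding I
open OnePoint
open scoped MatrixGroups ModularForm Manifold Real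

open P2MW.S_ModularForm_heckeT_slash_eq_self_of_mem_Gamma0.ModularForm.HeckeSlashInvariance

/-- The `J`-twisted transfer formula. -/
theorem sp_periodMap_transfer_jConj {N : ℕ} [NeZero N] {X : Type} [Fintype X]
    (α : X → GL (Fin 2) ℝ) (hα : ∀ x, 0 < (α x).det.val)
    (τ : Equiv.Perm X) (u : X → Gamma0 N)
    (hu : ∀ x, spConj (α x) = mapGL ℝ ((u x : Gamma0 N) : SL(2, ℤ)) * α (τ x))
    (f Tf : CuspForm (Gamma0 N) 2)
    (hT : ∀ z : ℍ, Tf z = ∑ x, ((f : ℍ → ℂ) ∣[(2 : ℤ)] α x) z)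
    (γ : Gamma0 N) (σ : Equiv.Perm X) (κ : X → Gamma0 N)
    (h : Fermat.Agent.H63.IsRewriting N α γ σ κ) :
    periodMap N Tf (Additive.ofMul (jConjGamma0 N γ))
      = ∑ x, periodMap N f (Additive.ofMul (jConjGamma0 N (κ x))) := by
  rw [sp_periodMap_transfer α hα f Tf hT (jConjGamma0 N γ) _ _
    (sp_isRewriting_jConj α γ σ κ h τ u hu)]
  rw [Equiv.sum_comp τ.symm (fun x => periodMap N f
    (Additive.ofMul ((u x)⁻¹ * jConjGamma0 N (κ x) * u (σ x))))]
  have hterm : ∀ x, periodMap N f (Additive.ofMul ((u x)⁻¹ * jConjGamma0 N (κ x) * u (σ x)))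
      = periodMap N f (Additive.ofMul (jConjGamma0 N (κ x)))
        + (periodMap N f (Additive.ofMul (u (σ x))) - periodMap N f (Additive.ofMul (u x))) := by
    intro x
    rw [ofMul_mul, ofMul_mul, ofMul_inv, map_add, map_add, map_neg]
    ring
  rw [Finset.sum_congr rfl fun x _ => hterm x, Finset.sum_add_distrib, Finset.sum_sub_distrib,
    Equiv.sum_comp σ (fun x => periodMap N f (Additive.ofMul (u x)))]
  ring

/-- The transfer formula for `periodHomPair`. -/
theorem sp_periodHomPair_transfer {N : ℕ} [NeZero N] {X : Type} [Fintype X]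
    (α : X → GL (Fin 2) ℝ) (hα : ∀ x, 0 < (α x).det.val)
    (τ : Equiv.Perm X) (u : X → Gamma0 N)
    (hu : ∀ x, spConj (α x) = mapGL ℝ ((u x : Gamma0 N) : SL(2, ℤ)) * α (τ x))
    (f g Tf Tg : CuspForm (Gamma0 N) 2)
    (hTf : ∀ z : ℍ, Tf z = ∑ x, ((f : ℍ → ℂ) ∣[(2 : ℤ)] α x) z)
    (hTg : ∀ z : ℍ, Tg z = ∑ x, ((g : ℍ → ℂ) ∣[(2 : ℤ)] α x) z)
    (γ : Gamma0 N) (σ : Equiv.Perm X) (κ : X → Gamma0 N)
    (h : Fermat.Agent.H63.IsRewriting N α γ σ κ) :
    periodHomPair N (Tf, Tg) (Additive.ofMul γ)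
      = ∑ x, periodHomPair N (f, g) (Additive.ofMul (κ x)) := by
  have hprim : ∀ f : CuspForm (Gamma0 N) 2, ∃ F : ℍ → ℂ, HasEquivariantPrimitive N f F :=
    fun f => Fermat.Agent.H63.exists_hasEquivariantPrimitive N f
  rw [Fermat.Agent.H31.periodHomPair_apply hprim,
    Finset.sum_congr rfl fun x _ => Fermat.Agent.H31.periodHomPair_apply hprim f g (κ x),
    sp_periodMap_transfer α hα f Tf hTf γ σ κ h,
    sp_periodMap_transfer α hα g Tg hTg γ σ κ h,
    sp_periodMap_transfer_jConj α hα τ u hu f Tf hTf γ σ κ h,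
    sp_periodMap_transfer_jConj α hα τ u hu g Tg hTg γ σ κ h]
  simp only [Finset.sum_add_distrib, Finset.sum_sub_distrib]

/-- The matrix `T⁻¹ = [[1,-1],[0,1]]` as an element of `Γ₀(N)`. -/
def spTinvSL : SL(2, ℤ) := ⟨!![1, -1; 0, 1], by simp [Matrix.det_fin_two_of]⟩

/-- The matrix `T⁻¹ = [[1,-1],[0,1]]` as an element of `Γ₀(N)`. -/
def spTinv (N : ℕ) : Gamma0 N :=
  ⟨spTinvSL, by rw [Gamma0_mem]; simp [spTinvSL]⟩

theorem spTinv_coe (N : ℕ) :
    (((spTinv N : Gamma0 N) : SL(2, ℤ)) : Matrix (Fin 2) (Fin 2) ℤ) = !![1, -1; 0, 1] := rfl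

/-- The correcting element: `1` at `0`, `T⁻¹` elsewhere. -/
noncomputable def spU (N p : ℕ) (x : ZMod p) : Gamma0 N :=
  open scoped Classical in if x = 0 then 1 else spTinv N

theorem spConj_heckeMatrix (N : ℕ) {p : ℕ} [NeZero p] (x : ZMod p) :
    spConj (ModularForm.heckeMatrix p x.val)
      = mapGL ℝ ((spU N p x : Gamma0 N) : SL(2, ℤ)) * ModularForm.heckeMatrix p (-x).val := by
  have hp : p ≠ 0 := NeZero.ne p
  by_cases hx : x = 0
  · subst hx
    ext i j
    rw [spConj_apply]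
    fin_cases i <;> fin_cases j <;>
      simp [spU, hp]
  · have hval : ((-x).val : ℝ) = (p : ℝ) - (x.val : ℝ) := by
      rw [ZMod.neg_val, if_neg hx, Nat.cast_sub (ZMod.val_le x)]
    ext i j
    rw [spConj_apply]
    fin_cases i <;> fin_cases j <;>
      simp [spU, hx, hp, spTinv_coe, Matrix.mul_apply, Fin.sum_univ_two, hval]
    ring

theorem spConj_heckeDiagMatrix {p : ℕ} (hp : p ≠ 0) :
    spConj (ModularForm.heckeDiagMatrix p) = ModularForm.heckeDiagMatrix p := by
  ext i j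
  rw [spConj_apply]
  fin_cases i <;> fin_cases j <;> simp [hp]

/-- negation on `OnePoint (ZMod p)`, fixing `∞` -/
def spNegOne (p : ℕ) : Equiv.Perm (OnePoint (ZMod p)) :=
  Equiv.optionCongr (Equiv.neg (ZMod p))

/-- the correcting element on `OnePoint (ZMod p)` -/
noncomputable def spUOne (N p : ℕ) (x : OnePoint (ZMod p)) : Gamma0 N :=
  Option.elim x 1 (spU N p)

theorem spConj_heckeRep (N : ℕ) {p : ℕ} [NeZero p] (x : OnePoint (ZMod p)) :
    spConj (heckeRep p x)
      = mapGL ℝ ((spUOne N p x : Gamma0 N) : SL(2, ℤ)) * heckeRep p (spNegOne p x) := by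
  induction x using OnePoint.rec with
  | infty =>
    have h1 : spUOne N p (∞ : OnePoint (ZMod p)) = 1 := rfl
    have h2 : spNegOne p (∞ : OnePoint (ZMod p)) = ∞ := rfl
    rw [h1, h2, heckeRep_infty, spConj_heckeDiagMatrix (NeZero.ne p)]
    simp
  | coe j =>
    have h1 : spUOne N p ((j : ZMod p) : OnePoint (ZMod p)) = spU N p j := rfl
    have h2 : spNegOne p ((j : ZMod p) : OnePoint (ZMod p)) = ((-j : ZMod p) : OnePoint (ZMod p)) :=
      rfl
    rw [h1, h2, heckeRep_coe, heckeRep_coe, spConj_heckeMatrix N j]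

/-- **LB-PERIOD.** Hecke operators act on period classes by the transfer formula. -/
theorem heckePeriodStatement (N : ℕ) [NeZero N] : Fermat.Agent.H63.HeckePeriodStatement N := by
  refine ⟨?_, ?_⟩
  · intro ℓ hℓ hℓN f g γ σ κ h
    have : NeZero ℓ := ⟨hℓ.ne_zero⟩
    refine sp_periodHomPair_transfer (heckeRep ℓ) ?_ (spNegOne ℓ) (spUOne N ℓ)
      (spConj_heckeRep N) f g _ _ ?_ ?_ γ σ κ h
    · intro x
      induction x using OnePoint.rec with
      | infty => exact ModularForm.det_heckeDiagMatrix_pos ℓ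
      | coe j => exact ModularForm.det_heckeMatrix_pos ℓ j.val
    · intro z
      rw [CuspForm.heckeTLin_apply_apply, heckeT_eq_sum_onePoint, Finset.sum_apply]
    · intro z
      rw [CuspForm.heckeTLin_apply_apply, heckeT_eq_sum_onePoint, Finset.sum_apply]
  · intro q hq hqN f g γ σ κ h
    have : NeZero q := ⟨hq.ne_zero⟩
    refine sp_periodHomPair_transfer (fun x : ZMod q => ModularForm.heckeMatrix q x.val) ?_
      (Equiv.neg (ZMod q)) (spU N q) (fun x => spConj_heckeMatrix N x) f g _ _ ?_ ?_ γ σ κ h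
    · intro x
      exact ModularForm.det_heckeMatrix_pos q x.val
    · intro z
      rw [CuspForm.heckeULin_apply_apply, heckeU_eq_sum_zmod, Finset.sum_apply]
    · intro z
      rw [CuspForm.heckeULin_apply_apply, heckeU_eq_sum_zmod, Finset.sum_apply]

end Fermat.Agent.H82
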